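import Mathlib
import Fermat.Agent.S23.LevelOne
import Fermat.Agent.S23.BddDenom
import Fermat.Agent.S23.ConverseQ
import Fermat.Agent.S23.H503.Lagrange
import Fermat.Agent.S23.Cap.Basic
import Fermat.Agent.S23.Cap.Descent
import Fermat.Prelude.Thm_ModularForm_sturm_bound_of_isArithmetic

/-!
# S48 / INT input W2 (helper916): Galois descent for an arbitrary finite index subgroup

Port of the landed S23 (`Fermat/Agent/S23/Cap`) from `Γ₀(N)` to an arbitrary finite index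
subgroup `Γ ≤ SL₂(ℤ)` having `1` as a strict period and possessing a **`t`-form**: a modular form
`t` on `Γ` with integral `q`-expansion such that `t ∣ γ ≠ t` for all `γ ∈ SL₂(ℤ) \ Γ`.

Main result: `span_isIntSeries_eq_top` : `S_k(Γ)` is spanned by forms with integral
`q`-expansion (any weight `k`).
-/

set_option autoImplicit false
set_option linter.unusedSectionVars false

open UpperHalfPlane ModularForm ModularFormClass MatrixGroups CongruenceSubgroup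

namespace Fermat.Agent.S48.H916

open Fermat.Agent.S23.Cap Fermat.Agent.S23

/-- The existence of a `t`-form for `𝒢`. -/
def HasTForm (𝒢 : Subgroup (GL (Fin 2) ℝ)) : Prop :=
  ∃ (w : ℤ) (t : ℍ → ℂ), IsMF 𝒢 w t ∧ IsIntSeries (qx t) ∧
    ∀ γ : GL (Fin 2) ℝ, γ ∈ SLZ → γ ∉ 𝒢 → t ∣[w] γ ≠ t

section nice

variable {𝒢 : Subgroup (GL (Fin 2) ℝ)} {k k₁ k₂ : ℤ} {f g : ℍ → ℂ}

theorem nice_of_isMF (h1 : (1 : ℝ) ∈ 𝒢.strictPeriods) (hf : IsMF 𝒢 k f) : Conv.IsNice f := by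
  obtain ⟨F, rfl⟩ := hf
  exact Conv.isNice_of_modularFormClass h1 F

theorem nice_smul (hf : Conv.IsNice f) (c : ℂ) : Conv.IsNice (c • f) := by
  have hc : Conv.IsNice (fun _ : ℍ => c) :=
    ⟨mdifferentiable_const, fun z ↦ rfl, Filter.const_boundedAtFilter _ c⟩
  have : c • f = (fun _ : ℍ => c) * f := by
    ext z
    simp
  rw [this]
  exact hc.mul hf

theorem qxg_add (h1 : (1 : ℝ) ∈ 𝒢.strictPeriods) (hf : IsMF 𝒢 k₁ f) (hg : IsMF 𝒢 k₂ g) :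
    qx (f + g) = qx f + qx g :=
  Conv.IsNice.qExpansion_add (nice_of_isMF h1 hf) (nice_of_isMF h1 hg)

theorem qxg_mul (h1 : (1 : ℝ) ∈ 𝒢.strictPeriods) (hf : IsMF 𝒢 k₁ f) (hg : IsMF 𝒢 k₂ g) :
    qx (f * g) = qx f * qx g :=
  Conv.IsNice.qExpansion_mul (nice_of_isMF h1 hf) (nice_of_isMF h1 hg)

theorem qxg_pow (h1 : (1 : ℝ) ∈ 𝒢.strictPeriods) (hf : IsMF 𝒢 k f) (n : ℕ) :
    qx (f ^ n) = qx f ^ n :=
  Conv.IsNice.qExpansion_pow (nice_of_isMF h1 hf) n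

theorem qxg_smul (h1 : (1 : ℝ) ∈ 𝒢.strictPeriods) (c : ℂ) (hf : IsMF 𝒢 k f) :
    qx (c • f) = c • qx f :=
  UpperHalfPlane.qExpansion_smul (h := 1) (nice_of_isMF h1 hf).analyticAt c

theorem qxg_sum (h1 : (1 : ℝ) ∈ 𝒢.strictPeriods) {ι : Type*} (s : Finset ι) (F : ι → ℍ → ℂ)
    (w : ι → ℤ) (hF : ∀ i ∈ s, IsMF 𝒢 (w i) (F i)) :
    qx (∑ i ∈ s, F i) = ∑ i ∈ s, qx (F i) :=
  Conv.IsNice.qExpansion_sum s fun i hi => nice_of_isMF h1 (hF i hi)

theorem eq_zero_of_qxg_eq_zero (h1 : (1 : ℝ) ∈ 𝒢.strictPeriods) (hf : IsMF 𝒢 k f)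
    (h : qx f = 0) : f = 0 :=
  (Conv.IsNice.qExpansion_eq_zero_iff (nice_of_isMF h1 hf)).mp h

theorem eq_of_qxg_eq (h1 : (1 : ℝ) ∈ 𝒢.strictPeriods) (hf : IsMF 𝒢 k f) (hg : IsMF 𝒢 k g)
    (h : qx f = qx g) : f = g := by
  have hn : Conv.IsNice (-g) := by
    have := nice_smul (nice_of_isMF h1 hg) (-1)
    simpa using this
  have h2 : qExpansion 1 (-g) = -qExpansion 1 g := by
    have := UpperHalfPlane.qExpansion_smul (h := 1) (nice_of_isMF h1 hg).analyticAt (-1 : ℂ)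
    simpa using this
  have h1' : qExpansion 1 (f + -g) = 0 := by
    rw [Conv.IsNice.qExpansion_add (nice_of_isMF h1 hf) hn, h2]
    have h' : qExpansion 1 f = qExpansion 1 g := h
    rw [h']
    exact add_neg_cancel _
  have := (Conv.IsNice.qExpansion_eq_zero_iff ((nice_of_isMF h1 hf).add hn)).mp h1'
  have h3 : f - g = 0 := by rw [sub_eq_add_neg]; exact this
  exact sub_eq_zero.mp h3

theorem isMF_of_le {𝒢' : Subgroup (GL (Fin 2) ℝ)} (h : 𝒢 ≤ 𝒢') (hf : IsMF 𝒢' k f) :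
    IsMF 𝒢 k f := by
  obtain ⟨F, rfl⟩ := hf
  exact ⟨{ toFun := F
           slash_action_eq' := fun γ hγ => F.slash_action_eq' γ (h hγ)
           holo' := F.holo'
           bdd_at_cusps' := fun hc => F.bdd_at_cusps' (hc.mono h) }, rfl⟩

theorem isCF_of_le {𝒢' : Subgroup (GL (Fin 2) ℝ)} (h : 𝒢 ≤ 𝒢') (hf : IsCF 𝒢' k f) :
    IsCF 𝒢 k f := by
  obtain ⟨F, rfl⟩ := hf
  exact ⟨{ toFun := F
           slash_action_eq' := fun γ hγ => F.slash_action_eq' γ (h hγ)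
           holo' := F.holo'
           zero_at_cusps' := fun hc => F.zero_at_cusps' (hc.mono h) }, rfl⟩

/-- Sturm bound (from the Prelude), in the `IsMF` language. -/
theorem sturm_g [𝒢.IsArithmetic] (h1 : (1 : ℝ) ∈ 𝒢.strictPeriods) (hf : IsMF 𝒢 k f)
    (h : ∀ n : ℕ, n ≤ (k * 𝒢.relIndex 𝒮ℒ).toNat / 12 → PowerSeries.coeff n (qx f) = 0) :
    f = 0 := by
  obtain ⟨F, rfl⟩ := hf
  have hord : (↑((k * 𝒢.relIndex 𝒮ℒ).toNat / 12) : ℕ∞) < (qExpansion 1 F).order := by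
    have h2 : ((((k * 𝒢.relIndex 𝒮ℒ).toNat / 12 + 1 : ℕ)) : ℕ∞) ≤ (qExpansion 1 F).order := by
      apply PowerSeries.nat_le_order
      intro i hi
      exact h i (by omega)
    refine lt_of_lt_of_le ?_ h2
    exact_mod_cast Nat.lt_succ_self _
  have := ModularForm.sturm_bound_of_isArithmetic h1 hord
  rw [this]
  rfl

end nice

section descent

variable (Γ : Subgroup SL(2, ℤ)) [Γ.FiniteIndex]

/-- `Γ` as a subgroup of `GL(2, ℝ)`. -/
local notation "𝔊" => (Subgroup.map (Matrix.SpecialLinearGroup.mapGL ℝ) Γ)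

theorem map_le_SLZ : 𝔊 ≤ SLZ := by
  rintro _ ⟨γ, -, rfl⟩
  exact ⟨γ, rfl⟩

/-- **(A1)** A cusp form on `Γ` is a root of a monic polynomial whose coefficients are
level one cusp forms. -/
theorem exists_monic_relation_g (k : ℤ) (f : ℍ → ℂ) (hf : IsCF 𝔊 k f) :
    ∃ (μ : ℕ) (c : ℕ → ℍ → ℂ), 0 < μ ∧ (∀ i < μ, IsCF SLZ (k * (i + 1)) (c i)) ∧
      f ^ μ + ∑ i ∈ Finset.range μ, c i * f ^ (μ - 1 - i) = 0 := by
  obtain ⟨F, rfl⟩ := hf
  obtain ⟨n, b, hn, h⟩ := H503.exists_monic_cusp (𝒢 := 𝔊) F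
  refine ⟨n, fun i ↦ b (i + 1), hn,
    fun i _ ↦ ⟨CuspForm.mcast (by push_cast; ring) (b (i + 1)), rfl⟩, ?_⟩
  ext τ
  have h1 := h τ
  rw [← Finset.Ico_add_one_right_eq_Icc, Finset.sum_Ico_eq_sum_range, Nat.add_sub_cancel] at h1
  simp only [Pi.add_apply, Pi.pow_apply, Finset.sum_apply, Pi.mul_apply, Pi.zero_apply]
  rw [← h1]
  congr 1
  refine Finset.sum_congr rfl fun i _ ↦ ?_
  rw [show 1 + i = i + 1 from add_comm _ _, show n - (i + 1) = n - 1 - i by omega]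

/-- **(A2)** Lagrange interpolation. -/
theorem exists_lagrange_g (k w : ℤ) (f t : ℍ → ℂ)
    (hf : IsMF 𝔊 k f) (ht : IsMF 𝔊 w t)
    (hdist : ∀ γ : GL (Fin 2) ℝ, γ ∈ SLZ → γ ∉ 𝔊 → t ∣[w] γ ≠ t) :
    ∃ (μ : ℕ) (a b : ℕ → ℍ → ℂ), 0 < μ ∧
      (∀ j < μ, IsMF SLZ (k + w * ((μ : ℤ) - 1 - j)) (a j)) ∧
      (∀ j < μ, IsMF SLZ (w * ((μ : ℤ) - 1 - j)) (b j)) ∧
      (∑ j ∈ Finset.range μ, b j * t ^ j) ≠ 0 ∧
      (∑ j ∈ Finset.range μ, b j * t ^ j) * f = ∑ j ∈ Finset.range μ, a j * t ^ j := by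
  obtain ⟨F, rfl⟩ := hf
  obtain ⟨T, rfl⟩ := ht
  have hdist' : ∀ q : SLZ ⧸ (𝔊).subgroupOf SLZ, q ≠ ((1 : SLZ) : SLZ ⧸ (𝔊).subgroupOf SLZ) →
      SlashInvariantForm.quotientFunc T q ≠ (T : ℍ → ℂ) := by
    intro q hq
    induction q using Quotient.inductionOn with
    | h r =>
      rw [SlashInvariantForm.quotientFunc_mk]
      refine hdist _ (inv_mem r.2) fun hmem ↦ hq ?_
      have h1 : r ∈ (𝔊).subgroupOf SLZ := by
        rw [Subgroup.mem_subgroupOf]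
        simpa using inv_mem hmem
      exact QuotientGroup.eq.mpr (by simpa using inv_mem h1)
  obtain ⟨n, a, c, hn, ⟨τ₀, hτ₀⟩, h⟩ := H503.exists_lagrange (𝒢 := 𝔊) F T hdist'
  have hcast : ∀ j < n, (((n - 1 - j : ℕ) : ℤ)) = (n : ℤ) - 1 - j := by
    intro j hj
    omega
  have hsum : ∀ (g : ℕ → ℍ → ℂ) (τ : ℍ),
      ∑ j ∈ Finset.range n, g (n - 1 - j) τ * (T : ℍ → ℂ) τ ^ j =
        ∑ m ∈ Finset.range n, g m τ * (T : ℍ → ℂ) τ ^ (n - 1 - m) := by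
    intro g τ
    rw [← Finset.sum_range_reflect]
    refine Finset.sum_congr rfl fun j hj ↦ ?_
    have hj' := Finset.mem_range.mp hj
    congr 2
    omega
  refine ⟨n, fun j ↦ a (n - 1 - j), fun j ↦ c (n - 1 - j), hn, ?_, ?_, ?_, ?_⟩
  · intro j hj
    exact ⟨ModularForm.mcast (by rw [hcast j hj]) (a (n - 1 - j)), rfl⟩
  · intro j hj
    exact ⟨ModularForm.mcast (by rw [hcast j hj]) (c (n - 1 - j)), rfl⟩
  · intro h0
    apply hτ₀
    have := congrFun h0 τ₀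
    simp only [Finset.sum_apply, Pi.mul_apply, Pi.pow_apply, Pi.zero_apply] at this
    rw [← this]
    exact (hsum (fun m ↦ (c m : ℍ → ℂ)) τ₀).symm
  · ext τ
    simp only [Finset.sum_apply, Pi.mul_apply, Pi.pow_apply]
    rw [hsum (fun m ↦ (c m : ℍ → ℂ)) τ, hsum (fun m ↦ (a m : ℍ → ℂ)) τ, mul_comm]
    exact h τ

/-- **Converse.** From formal relations back to a cusp form. -/
theorem exists_cuspForm_of_relations_g (h1 : (1 : ℝ) ∈ (𝔊).strictPeriods)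
    (k w' : ℤ) (U V : ℍ → ℂ)
    (hU : IsMF 𝔊 w' U) (hV : IsMF 𝔊 (w' + k) V) (hU0 : U ≠ 0)
    (μ : ℕ) (hμ : 0 < μ) (c : ℕ → ℍ → ℂ) (hc : ∀ i < μ, IsCF SLZ (k * (i + 1)) (c i))
    (G : PowerSeries ℂ) (h1' : qx U * G = qx V)
    (h2 : G ^ μ + ∑ i ∈ Finset.range μ, qx (c i) * G ^ (μ - 1 - i) = 0) :
    ∃ g : ℍ → ℂ, IsCF 𝔊 k g ∧ qx g = G := by
  obtain ⟨Uf, rfl⟩ := hU
  obtain ⟨Vf, rfl⟩ := hV
  have hUf : Uf ≠ 0 := fun h => hU0 (by rw [h]; rfl)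
  have hb : ∀ i < μ, ∃ (wi : ℤ) (B : CuspForm 𝒮ℒ wi), wi = k * ((μ : ℤ) - i) ∧
      ⇑B = c (μ - 1 - i) := by
    intro i hi
    obtain ⟨B, hB⟩ := hc (μ - 1 - i) (by omega)
    refine ⟨_, B, ?_, hB⟩
    have : ((μ - 1 - i : ℕ) : ℤ) = (μ : ℤ) - 1 - i := by omega
    rw [this]; ring
  have hmonic : G ^ μ + ∑ i ∈ Finset.range μ, qExpansion 1 (c (μ - 1 - i)) * G ^ i = 0 := by
    rw [← h2]
    congr 1
    rw [← Finset.sum_range_reflect]
    refine Finset.sum_congr rfl fun i hi => ?_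
    have : i < μ := Finset.mem_range.mp hi
    have h' : μ - 1 - (μ - 1 - i) = i := by omega
    rw [h']
  obtain ⟨F, hF⟩ := Fermat.Agent.S23.Conv.exists_cuspForm_qExpansion_eq (Γ := Γ) h1
    (k := k) (w := w') (m := w' + k) rfl Vf Uf hUf hμ (fun i => c (μ - 1 - i)) hb G
    (by rw [mul_comm]; exact h1') hmonic
  exact ⟨F, ⟨F, rfl⟩, hF⟩

/-- `σ`-conjugate of a level one modular form. -/
theorem levelOne_conj_g (σ : ℂ →+* ℂ) (k : ℤ) (f : ℍ → ℂ) (hf : IsMF SLZ k f) :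
    ∃ f' : ℍ → ℂ, IsMF SLZ k f' ∧ qx f' = (qx f).map σ := by
  obtain ⟨F, rfl⟩ := hf
  obtain ⟨g, hg⟩ := Fermat.Agent.S23.LevelOne.levelOne_transport_ringHom σ k F
  exact ⟨g, ⟨g, rfl⟩, hg⟩

/-- `σ`-conjugate of a level one cusp form. -/
theorem levelOne_conj_cusp_g (σ : ℂ →+* ℂ) (k : ℤ) (f : ℍ → ℂ) (hf : IsCF SLZ k f) :
    ∃ f' : ℍ → ℂ, IsCF SLZ k f' ∧ qx f' = (qx f).map σ := by
  obtain ⟨F, rfl⟩ := hf
  obtain ⟨g, hg⟩ := Fermat.Agent.S23.LevelOne.levelOne_transport_cusp_ringHom σ k F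
  exact ⟨g, ⟨g, rfl⟩, hg⟩

/-- q-expansion of `Σ_j b_j t^j` for level one `b_j` and a level `Γ` form `t`. -/
theorem qx_sum_mul_pow_g (h1 : (1 : ℝ) ∈ (𝔊).strictPeriods) (w : ℤ) (t : ℍ → ℂ)
    (ht : IsMF 𝔊 w t) (ν : ℕ) (b : ℕ → ℍ → ℂ) (wt : ℕ → ℤ)
    (hb : ∀ j < ν, IsMF SLZ (wt j) (b j)) :
    qx (∑ j ∈ Finset.range ν, b j * t ^ j) = ∑ j ∈ Finset.range ν, qx (b j) * qx t ^ j := by
  rw [qxg_sum h1 (Finset.range ν) (fun j => b j * t ^ j) (fun j => wt j + w * j)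
    (fun j hj => ((isMF_of_le (map_le_SLZ Γ) (hb j (Finset.mem_range.mp hj))).mul (ht.pow j)))]
  refine Finset.sum_congr rfl fun j hj => ?_
  rw [qxg_mul h1 (isMF_of_le (map_le_SLZ Γ) (hb j (Finset.mem_range.mp hj))) (ht.pow j),
    qxg_pow h1 ht]

/-- **Galois stability.** -/
theorem galois_stable_g (h1 : (1 : ℝ) ∈ (𝔊).strictPeriods) (hT : HasTForm 𝔊)
    (k : ℤ) (σ : ℂ →+* ℂ) (f : ℍ → ℂ) (hf : IsCF 𝔊 k f) :
    ∃ g : ℍ → ℂ, IsCF 𝔊 k g ∧ qx g = (qx f).map σ := by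
  obtain ⟨w, t, ht, htint, hdist⟩ := hT
  obtain ⟨μ, c, hμ, hc, hrel⟩ := exists_monic_relation_g Γ k f hf
  obtain ⟨ν, a, b, hν, ha, hb, hU0, hUV⟩ := exists_lagrange_g Γ k w f t hf.isMF ht hdist
  have hfM : IsMF 𝔊 k f := hf.isMF
  have hle := map_le_SLZ Γ
  -- the `σ`-conjugates of the level one coefficients
  choose! c' hc' hc'q using fun i (hi : i < μ) => levelOne_conj_cusp_g σ _ (c i) (hc i hi)
  choose! a' ha' ha'q using fun j (hj : j < ν) => levelOne_conj_g σ _ (a j) (ha j hj)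
  choose! b' hb' hb'q using fun j (hj : j < ν) => levelOne_conj_g σ _ (b j) (hb j hj)
  have htσ : (qx t).map σ = qx t := htint.isRatSeries.map_eq σ
  -- the conjugate numerator and denominator
  have hU : IsMF 𝔊 (w * ((ν : ℤ) - 1)) (∑ j ∈ Finset.range ν, b' j * t ^ j) :=
    IsMF.sum _ _ fun j hj =>
      (((isMF_of_le hle (hb' j (Finset.mem_range.mp hj)))).mul (ht.pow j)).congr_weight
        (by ring)
  have hV : IsMF 𝔊 (w * ((ν : ℤ) - 1) + k) (∑ j ∈ Finset.range ν, a' j * t ^ j) :=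
    IsMF.sum _ _ fun j hj =>
      (((isMF_of_le hle (ha' j (Finset.mem_range.mp hj)))).mul (ht.pow j)).congr_weight
        (by ring)
  have hU₀ : IsMF 𝔊 (w * ((ν : ℤ) - 1)) (∑ j ∈ Finset.range ν, b j * t ^ j) :=
    IsMF.sum _ _ fun j hj =>
      (((isMF_of_le hle (hb j (Finset.mem_range.mp hj)))).mul (ht.pow j)).congr_weight
        (by ring)
  have hqU : qx (∑ j ∈ Finset.range ν, b' j * t ^ j)
      = (qx (∑ j ∈ Finset.range ν, b j * t ^ j)).map σ := by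
    rw [qx_sum_mul_pow_g Γ h1 w t ht ν b' _ hb', qx_sum_mul_pow_g Γ h1 w t ht ν b _ hb, map_sum]
    refine Finset.sum_congr rfl fun j hj => ?_
    rw [map_mul, map_pow, htσ, hb'q j (Finset.mem_range.mp hj)]
  have hqV : qx (∑ j ∈ Finset.range ν, a' j * t ^ j)
      = (qx (∑ j ∈ Finset.range ν, a j * t ^ j)).map σ := by
    rw [qx_sum_mul_pow_g Γ h1 w t ht ν a' _ ha', qx_sum_mul_pow_g Γ h1 w t ht ν a _ ha, map_sum]
    refine Finset.sum_congr rfl fun j hj => ?_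
    rw [map_mul, map_pow, htσ, ha'q j (Finset.mem_range.mp hj)]
  have hσinj : Function.Injective (PowerSeries.map σ) := by
    intro P Q h
    ext n
    have := congrArg (PowerSeries.coeff n) h
    simpa using σ.injective this
  have hU0' : (∑ j ∈ Finset.range ν, b' j * t ^ j) ≠ 0 := by
    intro h
    rw [h, qx_zero] at hqU
    have h0 : qx (∑ j ∈ Finset.range ν, b j * t ^ j) = 0 :=
      hσinj (by rw [← hqU, map_zero])
    exact hU0 (eq_zero_of_qxg_eq_zero h1 hU₀ h0)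
  have h1' : qx (∑ j ∈ Finset.range ν, b' j * t ^ j) * (qx f).map σ
      = qx (∑ j ∈ Finset.range ν, a' j * t ^ j) := by
    rw [hqU, hqV, ← map_mul, ← qxg_mul h1 hU₀ hfM, hUV]
  have h2 : ((qx f).map σ) ^ μ
      + ∑ i ∈ Finset.range μ, qx (c' i) * ((qx f).map σ) ^ (μ - 1 - i) = 0 := by
    have h := congrArg qx hrel
    have hterm : ∀ i ∈ Finset.range μ,
        IsMF 𝔊 (k * (i + 1) + k * ((μ - 1 - i : ℕ) : ℤ)) (c i * f ^ (μ - 1 - i)) :=
      fun i hi => ((isMF_of_le hle ((hc i (Finset.mem_range.mp hi)).isMF))).mul (hfM.pow _)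
    rw [qx_zero, qxg_add h1 (hfM.pow μ) (IsMF.sum (k := k * μ) _ _ fun i hi =>
        (hterm i hi).congr_weight (by
          have : i < μ := Finset.mem_range.mp hi
          push_cast [Nat.sub_sub, Nat.cast_sub (show 1 + i ≤ μ by omega)]
          ring)),
      qxg_pow h1 hfM, qxg_sum h1 _ _ _ hterm] at h
    have h' := congrArg (PowerSeries.map σ) h
    rw [map_zero, map_add, map_pow, map_sum] at h'
    rw [← h']
    congr 1
    refine Finset.sum_congr rfl fun i hi => ?_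
    rw [qxg_mul h1 (isMF_of_le hle ((hc i (Finset.mem_range.mp hi)).isMF)) (hfM.pow _),
      qxg_pow h1 hfM, map_mul, map_pow, hc'q i (Finset.mem_range.mp hi)]
  exact exists_cuspForm_of_relations_g Γ h1 k _ _ _ hU hV hU0' μ hμ c' hc' _ h1' h2

/-- The q-expansion of a level one modular form lies in the `ℂ`-span of integral series. -/
theorem qx_mem_IntSpan_of_levelOne_g {k : ℤ} {g : ℍ → ℂ} (hg : IsMF SLZ k g) :
    qx g ∈ BddDenom.IntSpan := by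
  obtain ⟨G, rfl⟩ := hg
  have h := LevelOne.levelOne_qExpansion_mem_span k G
  have hsub : Submodule.span ℂ (LevelOne.monoSet k) ≤
      Subalgebra.toSubmodule BddDenom.IntSpan := by
    rw [Submodule.span_le]
    rintro P ⟨a, b, -, rfl⟩
    exact BddDenom.iZC_mem_IntSpan _
  exact hsub h

/-- **Bounded denominators.** -/
theorem bounded_denominators_g (h1 : (1 : ℝ) ∈ (𝔊).strictPeriods) (hT : HasTForm 𝔊)
    (k : ℤ) (f : ℍ → ℂ) (hf : IsCF 𝔊 k f) (hrat : IsRatSeries (qx f)) :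
    ∃ D : ℕ, D ≠ 0 ∧ IsIntSeries (qx ((D : ℂ) • f)) := by
  have hfM : IsMF 𝔊 k f := hf.isMF
  have hle := map_le_SLZ Γ
  obtain ⟨μ, c, hμ, hc, hrel⟩ := exists_monic_relation_g Γ k f hf
  obtain ⟨w, t, ht, htint, hdist⟩ := hT
  obtain ⟨ν, a, b, hν, ha, hb, hne, hlag⟩ := exists_lagrange_g Γ k w f t hfM ht hdist
  have htI : qx t ∈ BddDenom.IntSpan := BddDenom.mem_IntSpan_of_int_coeff htint
  -- weights of the terms
  have hcM : ∀ i < μ, IsMF 𝔊 (k * (i + 1)) (c i) := fun i hi =>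
    isMF_of_le hle (hc i hi).isMF
  have hterm : ∀ i ∈ Finset.range μ, IsMF 𝔊 (k * μ) (c i * f ^ (μ - 1 - i)) := by
    intro i hi
    have hi' : i < μ := Finset.mem_range.mp hi
    refine IsMF.congr_weight ?_ ((hcM i hi').mul (hfM.pow (μ - 1 - i)))
    have : ((μ - 1 - i : ℕ) : ℤ) = (μ : ℤ) - 1 - i := by omega
    rw [this]
    ring
  -- the monic equation on q-expansions
  have h1a : qx f ^ μ + ∑ i ∈ Finset.range μ, qx (c i) * qx f ^ (μ - 1 - i) = 0 := by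
    have h := congrArg qx hrel
    rw [qx_zero, qxg_add h1 (hfM.pow μ) (IsMF.sum _ _ hterm), qxg_pow h1 hfM,
      qxg_sum h1 _ _ (fun _ => k * μ) hterm] at h
    rw [← h]
    congr 1
    refine Finset.sum_congr rfl fun i hi => ?_
    have hi' : i < μ := Finset.mem_range.mp hi
    rw [qxg_mul h1 (hcM i hi') (hfM.pow _), qxg_pow h1 hfM]
  have h1' : qx f ^ μ + ∑ m ∈ Finset.range μ, qx (c (μ - 1 - m)) * qx f ^ m = 0 := by
    rw [← h1a]
    congr 1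
    rw [← Finset.sum_range_reflect]
    refine Finset.sum_congr rfl fun m hm => ?_
    have hm' : m < μ := Finset.mem_range.mp hm
    have : μ - 1 - (μ - 1 - m) = m := by omega
    rw [this]
  -- the fraction relation on q-expansions
  have hbM : ∀ j < ν, IsMF 𝔊 (w * ((ν : ℤ) - 1 - j)) (b j) := fun j hj =>
    isMF_of_le hle (hb j hj)
  have haM : ∀ j < ν, IsMF 𝔊 (k + w * ((ν : ℤ) - 1 - j)) (a j) := fun j hj =>
    isMF_of_le hle (ha j hj)
  have hbt : ∀ j ∈ Finset.range ν, IsMF 𝔊 (w * ((ν : ℤ) - 1)) (b j * t ^ j) := by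
    intro j hj
    have hj' : j < ν := Finset.mem_range.mp hj
    refine IsMF.congr_weight ?_ ((hbM j hj').mul (ht.pow j))
    ring
  have hat : ∀ j ∈ Finset.range ν, IsMF 𝔊 (k + w * ((ν : ℤ) - 1)) (a j * t ^ j) := by
    intro j hj
    have hj' : j < ν := Finset.mem_range.mp hj
    refine IsMF.congr_weight ?_ ((haM j hj').mul (ht.pow j))
    ring
  have hDM : IsMF 𝔊 (w * ((ν : ℤ) - 1)) (∑ j ∈ Finset.range ν, b j * t ^ j) :=
    IsMF.sum _ _ hbt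
  have hqD : qx (∑ j ∈ Finset.range ν, b j * t ^ j) =
      ∑ j ∈ Finset.range ν, qx (b j) * qx t ^ j := by
    rw [qxg_sum h1 _ _ (fun _ => w * ((ν : ℤ) - 1)) hbt]
    refine Finset.sum_congr rfl fun j hj => ?_
    have hj' : j < ν := Finset.mem_range.mp hj
    rw [qxg_mul h1 (hbM j hj') (ht.pow j), qxg_pow h1 ht]
  have hqF : qx (∑ j ∈ Finset.range ν, a j * t ^ j) =
      ∑ j ∈ Finset.range ν, qx (a j) * qx t ^ j := by
    rw [qxg_sum h1 _ _ (fun _ => k + w * ((ν : ℤ) - 1)) hat]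
    refine Finset.sum_congr rfl fun j hj => ?_
    have hj' : j < ν := Finset.mem_range.mp hj
    rw [qxg_mul h1 (haM j hj') (ht.pow j), qxg_pow h1 ht]
  have hD0 : (∑ j ∈ Finset.range ν, qx (b j) * qx t ^ j) ≠ 0 := by
    rw [← hqD]
    intro h
    exact hne (eq_zero_of_qxg_eq_zero h1 hDM h)
  have hDF : (∑ j ∈ Finset.range ν, qx (b j) * qx t ^ j) * qx f =
      ∑ j ∈ Finset.range ν, qx (a j) * qx t ^ j := by
    rw [← hqD, ← hqF, ← hlag, qxg_mul h1 hDM hfM]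
  have hDI : (∑ j ∈ Finset.range ν, qx (b j) * qx t ^ j) ∈ BddDenom.IntSpan :=
    Subalgebra.sum_mem _ fun j hj =>
      Subalgebra.mul_mem _ (qx_mem_IntSpan_of_levelOne_g (hb j (Finset.mem_range.mp hj)))
        (Subalgebra.pow_mem _ htI j)
  have hFI : (∑ j ∈ Finset.range ν, qx (a j) * qx t ^ j) ∈ BddDenom.IntSpan :=
    Subalgebra.sum_mem _ fun j hj =>
      Subalgebra.mul_mem _ (qx_mem_IntSpan_of_levelOne_g (ha j (Finset.mem_range.mp hj)))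
        (Subalgebra.pow_mem _ htI j)
  obtain ⟨c₀, hc₀, hint⟩ := BddDenom.bdd (qx f) hrat μ (fun m => qx (c (μ - 1 - m)))
    (fun m hm => qx_mem_IntSpan_of_levelOne_g (hc (μ - 1 - m) (by omega)).isMF) h1'
    _ _ hDI hFI hD0 hDF
  refine ⟨c₀, hc₀.ne', fun n => ?_⟩
  obtain ⟨m, hm⟩ := hint n
  refine ⟨m, ?_⟩
  rw [qxg_smul h1 _ hfM, PowerSeries.coeff_smul, smul_eq_mul]
  exact hm

/-- The q-expansion as a `ℂ`-linear map on cusp forms. -/
noncomputable def qxLinG (h1 : (1 : ℝ) ∈ (𝔊).strictPeriods) (k : ℤ) :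
    CuspForm 𝔊 k →ₗ[ℂ] PowerSeries ℂ where
  toFun f := qx f
  map_add' f g := by
    have hf : IsMF 𝔊 k f := IsCF.isMF ⟨f, rfl⟩
    have hg : IsMF 𝔊 k g := IsCF.isMF ⟨g, rfl⟩
    simpa using qxg_add h1 hf hg
  map_smul' c f := by
    have hf : IsMF 𝔊 k f := IsCF.isMF ⟨f, rfl⟩
    simpa using qxg_smul h1 c hf

theorem qxLinG_injective (h1 : (1 : ℝ) ∈ (𝔊).strictPeriods) (k : ℤ) :
    Function.Injective (qxLinG Γ h1 k) := by
  intro f g h
  have hf : IsMF 𝔊 k f := IsCF.isMF ⟨f, rfl⟩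
  have hg : IsMF 𝔊 k g := IsCF.isMF ⟨g, rfl⟩
  exact DFunLike.coe_injective (eq_of_qxg_eq h1 hf hg h)

/-- **Main theorem.** If `Γ` has `1` as a strict period and a `t`-form, then `S_k(Γ)` is spanned
by the forms with integral `q`-expansion. -/
theorem span_isIntSeries_eq_top (h1 : (1 : ℝ) ∈ (𝔊).strictPeriods) (hT : HasTForm 𝔊) (k : ℤ) :
    Submodule.span ℂ {f : CuspForm 𝔊 k | ∀ n : ℕ, ∃ m : ℤ, ModularFormClass.qCoeff f n = (m : ℂ)}
      = ⊤ := by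
  rw [eq_top_iff]
  set T : Submodule ℂ (CuspForm 𝔊 k) :=
    Submodule.span ℂ {f : CuspForm 𝔊 k | ∀ n : ℕ, ∃ m : ℤ,
      ModularFormClass.qCoeff f n = (m : ℂ)} with hTdef
  have key : Submodule.map (qxLinG Γ h1 k) ⊤ ≤ Submodule.map (qxLinG Γ h1 k) T := by
    refine (descent (Submodule.map (qxLinG Γ h1 k) ⊤) ((k * (𝔊).relIndex 𝒮ℒ).toNat / 12)
      ?_ ?_).trans ?_
    · rintro F ⟨f, -, rfl⟩ h
      have hf : IsMF 𝔊 k f := IsCF.isMF ⟨f, rfl⟩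
      have : (f : ℍ → ℂ) = 0 := sturm_g h1 hf h
      have hf0 : f = 0 := DFunLike.coe_injective this
      simp [hf0]
    · rintro σ F ⟨f, -, rfl⟩
      obtain ⟨g, ⟨g', rfl⟩, hg⟩ := galois_stable_g Γ h1 hT k σ f ⟨f, rfl⟩
      exact ⟨g', trivial, hg⟩
    · rw [Submodule.span_le]
      rintro F ⟨⟨f, -, rfl⟩, hrat⟩
      obtain ⟨D, hD, hint⟩ := bounded_denominators_g Γ h1 hT k f ⟨f, rfl⟩ hrat
      have hD' : (D : ℂ) ≠ 0 := by exact_mod_cast hD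
      have hmem : (D : ℂ) • f ∈ T := by
        apply Submodule.subset_span
        intro n
        obtain ⟨m, hm⟩ := hint n
        exact ⟨m, by simpa [ModularFormClass.qCoeff, qx] using hm⟩
      refine ⟨f, ?_, rfl⟩
      have : f = (D : ℂ)⁻¹ • ((D : ℂ) • f) := by
        rw [smul_smul, inv_mul_cancel₀ hD', one_smul]
      rw [this]
      exact T.smul_mem _ hmem
  intro f _
  obtain ⟨g, hg, hgf⟩ := key ⟨f, trivial, rfl⟩
  rwa [← qxLinG_injective Γ h1 k hgf]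

end descent

end Fermat.Agent.S48.H916
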