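import Fermat.Agent.S48.H916.GeoSpec
import Fermat.Agent.S29.M4cCore

/-!
# S48 / RES, node GEO-ASM (helper916): the final chain of `Top.ResidualStatement`

* `exists_coordinates`        : an `F`-valued parabolic class of `Γ₁(M)` (`F ⊇ 𝔽_ℓ`) is a
  combination `∑ w_j c_j` of `ℤ/ℓ`-valued parabolic classes with `𝔽_ℓ`-independent `w_j`;
* `exists_eigenvector`        : a nonzero eigenclass + a `GeoPackage` give a nonzero simultaneous
  eigenvector of `T_p`, `D_p` in `F ⊗ A`;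
* `hasFrobModuleDet_of_class` : ... hence `H888.HasFrobModuleDet F (M ℓ) a e`;
* `CohStatement`              : the cohomological input (COH-ASM);
* `frobModuleStatement_of_geo`, `residualStatement_of_geo` :
  `CohStatement → (∃ B₀, GeoStatementFrom B₀) → Top.ResidualStatement`.
-/

set_option autoImplicit false

noncomputable section

namespace Fermat.Agent.S48.H916

open CongruenceSubgroup Matrix.SpecialLinearGroup ModularCurve.Period
open Fermat.Agent.S48.H548 Fermat.Agent.S48.H888 Fermat.Agent.S48.Top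
open scoped MatrixGroups TensorProduct

theorem geo_fg_SL2Z : Group.FG SL(2, ℤ) :=
  Group.fg_iff.mpr ⟨{ModularGroup.S, ModularGroup.T}, SpecialLinearGroup.SL2Z_generators,
    Set.toFinite _⟩

theorem geo_fg_Gamma1 (M : ℕ) [NeZero M] : Group.FG (Gamma1 M) := by
  have := geo_fg_SL2Z
  infer_instance

/-- The values of an additive character of a group lie in the span of the values on a
generating set. -/
theorem geo_mem_span {G : Type*} [Group G] {R V : Type*} [Ring R] [AddCommGroup V]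
    [Module R V] (χ : Additive G →+ V) (S : Set G) (hS : Subgroup.closure S = ⊤) (γ : G) :
    χ (Additive.ofMul γ) ∈ Submodule.span R ((fun x : G => χ (Additive.ofMul x)) '' S) := by
  have hγ : γ ∈ Subgroup.closure S := hS ▸ Subgroup.mem_top γ
  induction hγ using Subgroup.closure_induction with
  | mem x hx => exact Submodule.subset_span ⟨x, hx, rfl⟩
  | one => rw [ofMul_one, map_zero]; exact Submodule.zero_mem _
  | mul x y _ _ hx hy => rw [ofMul_mul, map_add]; exact Submodule.add_mem _ hx hy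
  | inv x _ hx => rw [ofMul_inv, map_neg]; exact Submodule.neg_mem _ hx

section loc

variable {M : ℕ} [NeZero M] {ℓ : ℕ} [Fact ℓ.Prime] {F : Type} [Field F] [Algebra (ZMod ℓ) F]

/-- **Coordinates.**  An `F`-valued parabolic class is a combination of `ℤ/ℓ`-valued parabolic
classes with `𝔽_ℓ`-linearly independent coefficients. -/
theorem exists_coordinates (cl : Additive (Gamma1 M) →+ F) (hcl0 : cl ≠ 0)
    (hcl : IsParClass M cl) :
    ∃ (n : ℕ) (w : Fin n → F) (c : Fin n → Additive (Gamma1 M) →+ ZMod ℓ),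
      LinearIndependent (ZMod ℓ) w ∧ (∀ j, IsParClass M (c j)) ∧ (∃ j, c j ≠ 0) ∧
      ∀ γ : Additive (Gamma1 M), cl γ = ∑ j, w j * algebraMap (ZMod ℓ) F (c j γ) := by
  obtain ⟨S, hS, hSfin⟩ := Group.fg_iff.mp (geo_fg_Gamma1 M)
  set W : Submodule (ZMod ℓ) F :=
    Submodule.span (ZMod ℓ) ((fun x : Gamma1 M => cl (Additive.ofMul x)) '' S) with hW
  have hmem : ∀ γ : Additive (Gamma1 M), cl γ ∈ W := fun γ =>
    geo_mem_span cl S hS (Additive.toMul γ)
  have : Module.Finite (ZMod ℓ) W := Module.Finite.span_of_finite (ZMod ℓ) (hSfin.image _)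
  let b := Module.finBasis (ZMod ℓ) W
  -- the class with values in `W`
  let X : Additive (Gamma1 M) →+ W :=
    AddMonoidHom.mk' (fun γ => ⟨cl γ, hmem γ⟩) (fun γ γ' => Subtype.ext (map_add cl γ γ'))
  have hXval : ∀ γ, ((X γ : W) : F) = cl γ := fun γ => rfl
  -- coordinate functionals
  let co : Fin (Module.finrank (ZMod ℓ) W) → W →+ ZMod ℓ := fun j =>
    ((Finsupp.lapply j).comp b.repr.toLinearMap).toAddMonoidHom
  have hco : ∀ j (x : W), co j x = b.repr x j := fun j x => rfl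
  have hsum : ∀ γ, cl γ = ∑ j, (b j : F) * algebraMap (ZMod ℓ) F (b.repr (X γ) j) := by
    intro γ
    have h1 := congrArg (fun x : W => (x : F)) (b.sum_repr (X γ))
    simp only [Submodule.coe_sum, Submodule.coe_smul] at h1
    rw [← hXval γ, ← h1]
    refine Finset.sum_congr rfl fun j _ => ?_
    rw [Algebra.smul_def, mul_comm]
  have hXpar : IsParClass M X :=
    ⟨fun γ h => Subtype.ext (hcl.1 γ h), fun γ h => Subtype.ext (hcl.2 γ h)⟩
  refine ⟨Module.finrank (ZMod ℓ) W, fun j => (b j : F), fun j => (co j).comp X, ?_, ?_, ?_, ?_⟩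
  · exact b.linearIndependent.map' W.subtype (Submodule.ker_subtype W)
  · exact fun j => hXpar.comp (co j)
  · by_contra hcon
    rw [not_exists] at hcon
    replace hcon : ∀ j, (co j).comp X = 0 := fun j => not_not.mp (hcon j)
    apply hcl0
    apply DFunLike.ext
    intro γ
    have hz : X γ = 0 := by
      apply b.repr.injective
      ext j
      rw [map_zero, Finsupp.zero_apply, ← hco]
      exact DFunLike.congr_fun (hcon j) γ
    rw [← hXval γ, hz]
    rfl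
  · intro γ
    exact hsum γ

/-- **The eigenvector.**  A nonzero parabolic eigenclass with values in `F` and a geometric
package give a nonzero simultaneous eigenvector in `F ⊗ A`. -/
theorem exists_eigenvector (pkg : GeoPackage M ℓ) (a δ : ℕ → F)
    (cl : Additive (Gamma1 M) →+ F) (hcl0 : cl ≠ 0) (hcl : IsParClass M cl)
    (hT : ∀ (p : ℕ) [Fact p.Prime] (hpM : ¬ p ∣ M), ¬ p ∣ M * ℓ →
      ∀ γ : Additive (Gamma1 M), heckeHom1 p hpM F cl γ = a p * cl γ)
    (hD : ∀ p : ℕ, p.Prime → ¬ p ∣ M * ℓ → ∃ (s : SL(2, ℤ)) (hs : s ∈ Gamma0 M),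
      ((s 1 1 : ℤ) : ZMod M) = (p : ZMod M) ∧
        ∀ γ : Additive (Gamma1 M), diaHom1 s hs F cl γ = δ p * cl γ) :
    ∃ v : F ⊗[ℤ] pkg.A, v ≠ 0 ∧ ∀ p : ℕ, p.Prime → ¬ p ∣ M * ℓ →
      (pkg.T p).baseChange F v = a p • v ∧ (pkg.D p).baseChange F v = δ p • v := by
  obtain ⟨n, w, c, hw, hc, ⟨j₀, hj₀⟩, hsum⟩ := exists_coordinates (ℓ := ℓ) cl hcl0 hcl
  -- the Kummer map on the subgroup of parabolic classes
  let κ' : parClassSubgroup M (ZMod ℓ) →+ pkg.A :=
    AddMonoidHom.mk' (fun q => pkg.κ q.1) (fun q q' => pkg.κ_add _ _ q.2 q'.2)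
  have hκ' : ∀ q : parClassSubgroup M (ZMod ℓ), κ' q = pkg.κ q.1 := fun q => rfl
  let ev : Additive (Gamma1 M) → parClassSubgroup M (ZMod ℓ) →+ ZMod ℓ := fun γ =>
    AddMonoidHom.mk' (fun q => q.1 γ) (fun q q' => rfl)
  have hev : ∀ q : parClassSubgroup M (ZMod ℓ), (∀ γ, ev γ q = 0) → q = 0 := by
    intro q hq
    apply Subtype.ext
    apply DFunLike.ext
    intro γ
    exact hq γ
  have hJ : ∀ y : pkg.A, ℓ • y = 0 := pkg.tors
  refine ⟨∑ j, w j ⊗ₜ[ℤ] pkg.κ (c j), ?_, ?_⟩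
  · apply Fermat.Agent.S29.M4c.core_ne_zero hJ w hw (fun j => pkg.κ (c j)) j₀
    intro h0
    exact hj₀ (pkg.κ_inj _ (hc j₀) h0)
  · intro p hp hpS
    have : Fact p.Prime := ⟨hp⟩
    have hpM : ¬ p ∣ M := fun h => hpS (Dvd.dvd.mul_right h ℓ)
    constructor
    · have hc' : ∀ j, IsParClass M (heckeHom1 p hpM (ZMod ℓ) (c j)) := fun j =>
        (hc j).heckeHom1 hpM
      have key := Fermat.Agent.S29.M4c.core_eq (F := F) κ' ev hev w (fun j => ⟨c j, hc j⟩)
        (fun j => ⟨heckeHom1 p hpM (ZMod ℓ) (c j), hc' j⟩) (a p) (fun γ => by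
          show ∑ j, w j * algebraMap (ZMod ℓ) F (heckeHom1 p hpM (ZMod ℓ) (c j) γ)
            = a p * ∑ j, w j * algebraMap (ZMod ℓ) F (c j γ)
          rw [← hsum γ, ← hT p hpM hpS γ]
          show _ = ∑ x : OnePoint (ZMod p), cl (Additive.ofMul (trf1 hpM (Additive.toMul γ) x))
          have hco : ∀ j, heckeHom1 p hpM (ZMod ℓ) (c j) γ
              = ∑ x : OnePoint (ZMod p), c j (Additive.ofMul (trf1 hpM (Additive.toMul γ) x)) :=
            fun j => rfl
          simp only [hco, map_sum, Finset.mul_sum]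
          rw [Finset.sum_comm]
          refine Finset.sum_congr rfl fun x _ => ?_
          exact (hsum _).symm)
      simp only [hκ'] at key
      rw [← key, map_sum]
      refine Finset.sum_congr rfl fun j _ => ?_
      rw [LinearMap.baseChange_tmul, pkg.κ_T p hpM hpS _ (hc j)]
    · obtain ⟨s, hs, hs11, hDs⟩ := hD p hp hpS
      have hc' : ∀ j, IsParClass M (diaHom1 s hs (ZMod ℓ) (c j)) := fun j =>
        (hc j).diaHom1 s hs
      have key := Fermat.Agent.S29.M4c.core_eq (F := F) κ' ev hev w (fun j => ⟨c j, hc j⟩)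
        (fun j => ⟨diaHom1 s hs (ZMod ℓ) (c j), hc' j⟩) (δ p) (fun γ => by
          show ∑ j, w j * algebraMap (ZMod ℓ) F (diaHom1 s hs (ZMod ℓ) (c j) γ)
            = δ p * ∑ j, w j * algebraMap (ZMod ℓ) F (c j γ)
          rw [← hsum γ, ← hDs γ]
          show _ = cl (Additive.ofMul (conj1 s hs (Additive.toMul γ)))
          exact (hsum _).symm)
      simp only [hκ'] at key
      rw [← key, map_sum]
      refine Finset.sum_congr rfl fun j _ => ?_
      rw [LinearMap.baseChange_tmul, pkg.κ_D p hp hpS s hs hs11 _ (hc j)]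

end loc

/-- Enlarging the exceptional set. -/
theorem hasFrobModuleDet_mono {F : Type} [Field F] {S S' : ℕ} {a e : ℕ → F}
    (h : HasFrobModuleDet F S a e) (hS : ∀ p : ℕ, p.Prime → ¬ p ∣ S' → ¬ p ∣ S) :
    HasFrobModuleDet F S' a e := by
  obtain ⟨V, i1, i2, ρ, hnt, hsm, hur, hfr⟩ := h
  exact ⟨V, i1, i2, ρ, hnt, hsm, fun p hp hpS => hur p hp (hS p hp hpS),
    fun p hp hpS => hfr p hp (hS p hp hpS)⟩

/-- **Local chain.**  A geometric package at level `Γ₁(M)` and a nonzero parabolic eigenclass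
`cl : Γ₁(M) → F` with `T_p cl = a_p cl`, `p ⟨p⟩ cl = e_p cl` give a nonzero smooth
`F[G_ℚ]`-module, unramified outside `M ℓ`, with `σ² - a_p σ + e_p = 0` for Frobenius elements. -/
theorem hasFrobModuleDet_of_class {M : ℕ} [NeZero M] {ℓ : ℕ} (hℓ : ℓ.Prime) {F : Type} [Field F]
    [CharP F ℓ] (pkg : GeoPackage M ℓ) (a e : ℕ → F)
    (cl : Additive (Gamma1 M) →+ F) (hcl0 : cl ≠ 0) (hcl : IsParClass M cl)
    (hT : ∀ (p : ℕ) [Fact p.Prime] (hpM : ¬ p ∣ M), ¬ p ∣ M * ℓ →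
      ∀ γ : Additive (Gamma1 M), heckeHom1 p hpM F cl γ = a p * cl γ)
    (hD : ∀ p : ℕ, p.Prime → ¬ p ∣ M * ℓ → ∀ (s : SL(2, ℤ)) (hs : s ∈ Gamma0 M),
      ((s 1 1 : ℤ) : ZMod M) = (p : ZMod M) →
        ∀ γ : Additive (Gamma1 M), (p : F) * diaHom1 s hs F cl γ = e p * cl γ) :
    HasFrobModuleDet F (M * ℓ) a e := by
  have : Fact ℓ.Prime := ⟨hℓ⟩
  let _ : Algebra (ZMod ℓ) F := ZMod.algebra F ℓ
  have hpF : ∀ p : ℕ, p.Prime → ¬ p ∣ M * ℓ → (p : F) ≠ 0 := by
    intro p hp hpS h0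
    have h1 : ℓ ∣ p := (CharP.cast_eq_zero_iff F ℓ p).mp h0
    have h2 : ℓ = p := (Nat.prime_dvd_prime_iff_eq hℓ hp).mp h1
    exact hpS (h2 ▸ Dvd.intro_left M rfl)
  refine hasFrobModuleDet_of_eigenvector (M * ℓ) a (fun p => (p : F)⁻¹ * e p) e pkg.T pkg.D
    pkg.T_gal pkg.D_gal pkg.smooth pkg.unram pkg.frob ?_ ?_
  · intro p hp hpS
    rw [← mul_assoc, mul_inv_cancel₀ (hpF p hp hpS), one_mul]
  · refine exists_eigenvector (ℓ := ℓ) pkg a _ cl hcl0 hcl hT ?_
    intro p hp hpS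
    have : Fact p.Prime := ⟨hp⟩
    have hpM : ¬ p ∣ M := fun h => hpS (Dvd.dvd.mul_right h ℓ)
    refine ⟨sigmaP M p hpM, sigmaP_mem hpM, sigmaP_lower hpM, fun γ => ?_⟩
    have h := hD p hp hpS _ (sigmaP_mem hpM) (sigmaP_lower hpM) γ
    rw [mul_assoc, ← h, ← mul_assoc, inv_mul_cancel₀ (hpF p hp hpS), one_mul]

/-! ### The global chain -/

/-- **COH (cohomological input, node COH-ASM).**  For an eigenform `f` of weight one there is a
level `M₀`, with the same prime divisors as `N`, and a bound `B` such that for every prime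
`ℓ > B`, every field `F` of characteristic `ℓ` and every `ψ : ℤ̄ → F` there is a nonzero
parabolic class `cl : Γ₁(M₀ ℓ) → F` with `T_p cl = ψ(a_p) cl` and `p ⟨p⟩ cl = ψ(ε(p)) cl` for
the primes `p ∤ M₀ ℓ`. -/
def CohStatement : Prop :=
  ∀ (N : ℕ) [NeZero N] (ε : DirichletCharacter ℂ N) (f : CuspForm (Gamma1 N) 1),
    IsEigen N ε f → ∃ (M₀ B : ℕ) (_ : NeZero M₀), (∀ p : ℕ, p.Prime → p ∣ M₀ → p ∣ N) ∧
      ∀ (ℓ : ℕ) (_ : ℓ.Prime), B < ℓ →
        ∀ (F : Type) [Field F] [IsAlgClosed F] [CharP F ℓ] (ψ : Zbar →+* F),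
        ∃ (_ : NeZero (M₀ * ℓ)) (a e : ℕ → Zbar) (cl : Additive (Gamma1 (M₀ * ℓ)) →+ F),
          (∀ p : ℕ, p.Prime → ¬ p ∣ N * ℓ → ((a p : Zbar) : ℂ) = ModularFormClass.qCoeff f p) ∧
          (∀ p : ℕ, p.Prime → ¬ p ∣ N * ℓ → ((e p : Zbar) : ℂ) = ε (p : ZMod N)) ∧
          cl ≠ 0 ∧ IsParClass (M₀ * ℓ) cl ∧
          (∀ (p : ℕ) [Fact p.Prime] (hpM : ¬ p ∣ M₀ * ℓ),
            ∀ γ : Additive (Gamma1 (M₀ * ℓ)), heckeHom1 p hpM F cl γ = ψ (a p) * cl γ) ∧
          (∀ p : ℕ, p.Prime → ¬ p ∣ M₀ * ℓ → ∀ (s : SL(2, ℤ)) (hs : s ∈ Gamma0 (M₀ * ℓ)),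
            ((s 1 1 : ℤ) : ZMod (M₀ * ℓ)) = (p : ZMod (M₀ * ℓ)) →
              ∀ γ : Additive (Gamma1 (M₀ * ℓ)),
                (p : F) * diaHom1 s hs F cl γ = ψ (e p) * cl γ)

/-- **GEO-ASM.**  The cohomological input and the geometric packages give the torsion-module
layer. -/
theorem frobModuleStatement_of_geo (hcoh : CohStatement) (hgeo : ∃ B₀, GeoStatementFrom B₀) :
    FrobModuleStatement := by
  intro N _ ε f hf
  obtain ⟨M₀, B, hM₀, hprimes, hB⟩ := hcoh N ε f hf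
  obtain ⟨B₀, hgeo⟩ := hgeo
  refine ⟨max B B₀, fun ℓ hℓ hBℓ F _ _ _ ψ => ?_⟩
  obtain ⟨hne, a, e, cl, ha, he, hcl0, hcl, hT, hD⟩ :=
    hB ℓ hℓ (lt_of_le_of_lt (le_max_left _ _) hBℓ) F ψ
  obtain ⟨pkg⟩ := hgeo (M₀ * ℓ) ℓ hℓ (lt_of_le_of_lt (le_max_right _ _) hBℓ)
    (Dvd.intro_left M₀ rfl)
  have h1 : HasFrobModuleDet F (M₀ * ℓ * ℓ) (fun p => ψ (a p)) (fun p => ψ (e p)) :=
    hasFrobModuleDet_of_class hℓ pkg _ _ cl hcl0 hcl
      (fun p _ hpM _ γ => hT p hpM γ)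
      (fun p hp hpS s hs hs11 γ =>
        hD p hp (fun h => hpS (Dvd.dvd.mul_right h ℓ)) s hs hs11 γ)
  refine hasFrobModule1_of_det ε f ℓ ψ a e ha he (hasFrobModuleDet_mono h1 ?_)
  intro p hp hpS hdvd
  -- `p ∣ M₀ ℓ ℓ` forces `p ∣ N ℓ`
  rcases (Nat.Prime.dvd_mul hp).mp hdvd with h | h
  · rcases (Nat.Prime.dvd_mul hp).mp h with h' | h'
    · exact hpS (Dvd.dvd.mul_right (hprimes p hp h') ℓ)
    · exact hpS (Dvd.dvd.mul_left h' N)
  · exact hpS (Dvd.dvd.mul_left h N)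

/-- **The final chain of RES**: `COH + GEO ⟹ Top.ResidualStatement`. -/
theorem residualStatement_of_geo (hcoh : CohStatement) (hgeo : ∃ B₀, GeoStatementFrom B₀) :
    ResidualStatement :=
  residualStatement_of_frobModule (frobModuleStatement_of_geo hcoh hgeo)

end Fermat.Agent.S48.H916
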