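import Fermat.Agent.S48.H548.HCoh1
import Fermat.Agent.S48.H888.MAsm

/-!
# S48 / RES, node GEO-ASM (helper916): the abstract geometric package

What the final chain of `Top.ResidualStatement` needs from the geometric side of Tower A1, stated
without any reference to a concrete model of `X₁(M)`:

* `IsParClass M c` : `c : Γ₁(M) → A` is a parabolic character vanishing on elements of finite
  order (the classes produced by `H548.exists_eigenclass1` / `exists_eigenclass_mul`);
* `GeoPackage M ℓ` : an `ℓ`-torsion abelian group `A` with a smooth `G_ℚ`-action, unramified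
  outside `M ℓ`, with operators `T p`, `D p` commuting with `G_ℚ`, the Eichler--Shimura relation
  `σ² x - T_p (σ x) + p · D_p x = 0` for every Frobenius element `σ` at `p ∤ M ℓ`, and a Kummer map
  `κ : Hom(Γ₁(M), ℤ/ℓ) → A`, additive and injective on parabolic classes, intertwining
  `H548.heckeHom1 p` with `T p` and `H548.diaHom1 a` (`a ∈ Γ₀(M)`, lower right entry `≡ p`)
  with `D p`.

In the application `A = J₁(M)[ℓ]` (or the `ℓ`-torsion of any curve between `X₁(M)` and `X₀(M)`).

Sign convention: the relation is `Frob² - T_p Frob + p ⟨p⟩ = 0` for the operators which correspond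
under `κ` to `heckeHom1 p` and `diaHom1 a` (`a₁₁ ≡ p`).  A construction yielding the relation for
the adjoint operators should use `GeoPackageDual` (file `GeoDual.lean`, if present).
-/

set_option autoImplicit false

noncomputable section

namespace Fermat.Agent.S48.H916

open CongruenceSubgroup Matrix.SpecialLinearGroup ModularCurve.Period
open Fermat.Agent.S48.H548 Fermat.Agent.S48.H888
open scoped MatrixGroups

/-- A parabolic character of `Γ₁(M)` which vanishes on the elements of finite order. -/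
def IsParClass (M : ℕ) {A : Type*} [AddCommGroup A] (c : Additive (Gamma1 M) →+ A) : Prop :=
  IsParabolicHom (Gamma1 M) c ∧ ∀ γ : Gamma1 M, IsOfFinOrder γ → c (Additive.ofMul γ) = 0

section parClass

variable {M : ℕ} {A : Type*} [AddCommGroup A]

theorem isParClass_zero : IsParClass M (0 : Additive (Gamma1 M) →+ A) :=
  ⟨fun _ _ => rfl, fun _ _ => rfl⟩

theorem IsParClass.add {c c' : Additive (Gamma1 M) →+ A} (hc : IsParClass M c)
    (hc' : IsParClass M c') : IsParClass M (c + c') :=
  ⟨fun γ h => by rw [AddMonoidHom.add_apply, hc.1 γ h, hc'.1 γ h, add_zero],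
    fun γ h => by rw [AddMonoidHom.add_apply, hc.2 γ h, hc'.2 γ h, add_zero]⟩

theorem IsParClass.neg {c : Additive (Gamma1 M) →+ A} (hc : IsParClass M c) :
    IsParClass M (-c) :=
  ⟨fun γ h => by rw [AddMonoidHom.neg_apply, hc.1 γ h, neg_zero],
    fun γ h => by rw [AddMonoidHom.neg_apply, hc.2 γ h, neg_zero]⟩

/-- Post-composition with an additive map preserves parabolic classes. -/
theorem IsParClass.comp {B : Type*} [AddCommGroup B] {c : Additive (Gamma1 M) →+ A}
    (hc : IsParClass M c) (u : A →+ B) : IsParClass M (u.comp c) :=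
  ⟨fun γ h => by rw [AddMonoidHom.comp_apply, hc.1 γ h, map_zero],
    fun γ h => by rw [AddMonoidHom.comp_apply, hc.2 γ h, map_zero]⟩

variable (M A) in
/-- The subgroup of parabolic classes. -/
def parClassSubgroup : AddSubgroup (Additive (Gamma1 M) →+ A) where
  carrier := {c | IsParClass M c}
  zero_mem' := isParClass_zero
  add_mem' := fun hc hc' => hc.add hc'
  neg_mem' := fun hc => hc.neg

theorem mem_parClassSubgroup {c : Additive (Gamma1 M) →+ A} :
    c ∈ parClassSubgroup M A ↔ IsParClass M c := Iff.rfl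

end parClass

section hecke

variable {M : ℕ} [NeZero M] {A : Type*} [AddCommGroup A]

/-- HCoh1 (helper548): `T_p` preserves parabolic classes. -/
theorem IsParClass.heckeHom1 {p : ℕ} [Fact p.Prime] (hpM : ¬ p ∣ M)
    {c : Additive (Gamma1 M) →+ A} (hc : IsParClass M c) :
    IsParClass M (heckeHom1 p hpM A c) :=
  ⟨isParabolicHom_heckeHom1 hpM c hc.1, heckeHom1_finOrder hpM c hc.2⟩

/-- HCoh1 (helper548): the diamond operators preserve parabolic classes. -/
theorem IsParClass.diaHom1 (a : SL(2, ℤ)) (ha : a ∈ Gamma0 M)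
    {c : Additive (Gamma1 M) →+ A} (hc : IsParClass M c) :
    IsParClass M (diaHom1 a ha A c) :=
  ⟨isParabolicHom_diaHom1 a ha c hc.1, diaHom1_finOrder a ha c hc.2⟩

end hecke

/-- **The abstract geometric package at level `Γ₁(M)` and residue characteristic `ℓ`.**
Everything Tower A1 has to deliver for the final chain of `Top.ResidualStatement`. -/
structure GeoPackage (M : ℕ) [NeZero M] (ℓ : ℕ) where
  /-- the torsion module (`J₁(M)[ℓ]` in the application) -/
  A : Type
  [instAddCommGroup : AddCommGroup A]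
  [instAction : DistribMulAction GalQ A]
  /-- Hecke operators -/
  T : ℕ → Module.End ℤ A
  /-- diamond operators, indexed by primes: `D p = ⟨p⟩` -/
  D : ℕ → Module.End ℤ A
  /-- the Kummer map -/
  κ : (Additive (Gamma1 M) →+ ZMod ℓ) → A
  tors : ∀ x : A, ℓ • x = 0
  T_gal : ∀ (p : ℕ) (σ : GalQ) (x : A), T p (σ • x) = σ • T p x
  D_gal : ∀ (p : ℕ) (σ : GalQ) (x : A), D p (σ • x) = σ • D p x
  smooth : ∀ x : A, ∃ L : IntermediateField ℚ (AlgebraicClosure ℚ), FiniteDimensional ℚ L ∧
    ∀ σ : GalQ, (∀ y ∈ L, σ y = y) → σ • x = x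
  unram : ∀ p : ℕ, p.Prime → ¬ p ∣ M * ℓ → ∀ V : ValuationSubring (AlgebraicClosure ℚ),
    V.LiesOverPrime p → ∀ σ ∈ V.inertiaSubgroupIn ℚ, ∀ x : A, σ • x = x
  frob : ∀ p : ℕ, p.Prime → ¬ p ∣ M * ℓ → ∀ V : ValuationSubring (AlgebraicClosure ℚ),
    V.LiesOverPrime p → ∀ σ : GalQ, V.IsFrobeniusAt σ p →
      ∀ x : A, σ • σ • x - T p (σ • x) + (p : ℤ) • D p x = 0
  κ_add : ∀ c c' : Additive (Gamma1 M) →+ ZMod ℓ, IsParClass M c → IsParClass M c' →
    κ (c + c') = κ c + κ c'
  κ_inj : ∀ c : Additive (Gamma1 M) →+ ZMod ℓ, IsParClass M c → κ c = 0 → c = 0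
  κ_T : ∀ (p : ℕ) [Fact p.Prime] (hpM : ¬ p ∣ M), ¬ p ∣ M * ℓ →
    ∀ c : Additive (Gamma1 M) →+ ZMod ℓ, IsParClass M c →
      κ (heckeHom1 p hpM (ZMod ℓ) c) = T p (κ c)
  κ_D : ∀ (p : ℕ), p.Prime → ¬ p ∣ M * ℓ → ∀ (a : SL(2, ℤ)) (ha : a ∈ Gamma0 M),
    ((a 1 1 : ℤ) : ZMod M) = (p : ZMod M) →
    ∀ c : Additive (Gamma1 M) →+ ZMod ℓ, IsParClass M c →
      κ (diaHom1 a ha (ZMod ℓ) c) = D p (κ c)

attribute [instance] GeoPackage.instAddCommGroup GeoPackage.instAction

/-- **GEO (strong form)**: a geometric package at every level and every prime. -/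
def GeoStatement : Prop :=
  ∀ (M : ℕ) [NeZero M] (ℓ : ℕ), ℓ.Prime → Nonempty (GeoPackage M ℓ)

/-- **GEO (weak form)**, sufficient for the chain: packages at the levels `M` divisible by `ℓ`,
for `ℓ` beyond a bound `B₀` and `M ≥ B₀`. -/
def GeoStatementFrom (B₀ : ℕ) : Prop :=
  ∀ (M : ℕ) [NeZero M] (ℓ : ℕ), ℓ.Prime → B₀ < ℓ → ℓ ∣ M → Nonempty (GeoPackage M ℓ)

theorem geoStatementFrom_of_geoStatement (h : GeoStatement) (B₀ : ℕ) : GeoStatementFrom B₀ :=
  fun M _ ℓ hℓ _ _ => h M ℓ hℓ

end Fermat.Agent.S48.H916
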