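import Mathlib
import Fermat.Agent.S29.H332.WeightedEis
import Fermat.Agent.S22T.Expand
import Fermat.Agent.S48.H128.TsumWeight

/-!
# S48 / INT input W2 (helper916): weight 3 Eisenstein series with an odd weight on `c`

For a bounded odd function `a : ℤ → ℂ`, `cEis a z = ∑_{(c,d) ∈ ℤ²} a(c) (c z + d)^{-3}`.

* `cEis_mdiff`, `cEis_slash_isBoundedAtImInfty`;
* `cEis_slash` : `cEis a ∣[3] γ = cEis (a ∘ (γ₁₁ * ·))` if `a` is `M`-periodic and `γ ∈ Γ₀(M)`;
* `qExpansion_cEis_coeff` : `cEis a = (-2πi)³ ∑_{n ≥ 1} (∑_{d c = n} a(d) c²) qⁿ`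
  (no constant term).
-/

set_option autoImplicit false

open UpperHalfPlane EisensteinSeries ModularForm Filter Topology Complex CongruenceSubgroup
open scoped Matrix MatrixGroups Manifold Real

noncomputable section

namespace Fermat.Agent.S48.H916

open Fermat.Agent.S29 Fermat.Agent.S48.H128

/-- A bounded odd weight function on `ℤ`. -/
structure IsOddWeight (a : ℤ → ℂ) : Prop where
  bdd : ∀ c, ‖a c‖ ≤ 1
  odd : ∀ c, a (-c) = -a c

theorem IsOddWeight.zero {a : ℤ → ℂ} (ha : IsOddWeight a) : a 0 = 0 := by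
  have h := ha.odd 0
  rw [neg_zero] at h
  have h2 : (2 : ℂ) * a 0 = 0 := by linear_combination h
  simpa using h2

/-- The weight `3` Eisenstein series `∑ a(c) (c z + d)^{-3}`. -/
def cEis (a : ℤ → ℂ) : ℍ → ℂ := H332.wEis (fun v => a (v 0)) 3

theorem cEis_mdiff {a : ℤ → ℂ} (ha : IsOddWeight a) : MDiff (cEis a) :=
  H332.wEis_mdifferentiable (fun v => ha.bdd (v 0)) le_rfl

theorem cEis_slash_isBoundedAtImInfty {a : ℤ → ℂ} (ha : IsOddWeight a) (g : SL(2, ℤ)) :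
    IsBoundedAtImInfty (cEis a ∣[(3 : ℤ)] g) :=
  H332.wEis_slash_isBoundedAtImInfty (fun v => ha.bdd (v 0)) le_rfl g

theorem vecMul_inv_zero (γ : SL(2, ℤ)) (v : Fin 2 → ℤ) :
    (v ᵥ* (γ⁻¹).1) 0 = v 0 * γ 1 1 - v 1 * γ 1 0 := by
  have hinv : (γ⁻¹).1 = !![γ 1 1, -γ 0 1; -γ 1 0, γ 0 0] := by
    rw [Matrix.SpecialLinearGroup.coe_inv, Matrix.adjugate_fin_two]
  rw [hinv]
  simp [Matrix.vecMul, dotProduct, Fin.sum_univ_two]
  ring

/-- Slash action of `Γ₀(M)` on `cEis a` for an `M`-periodic weight. -/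
theorem cEis_slash {M : ℕ} {a : ℤ → ℂ}
    (hper : ∀ c c' : ℤ, (c : ZMod M) = (c' : ZMod M) → a c = a c')
    (γ : SL(2, ℤ)) (hγ : γ ∈ Gamma0 M) :
    cEis a ∣[(3 : ℤ)] γ = cEis (fun c => a (γ 1 1 * c)) := by
  unfold cEis
  rw [H332.wEis_slash]
  congr 1
  funext v
  apply hper
  rw [vecMul_inv_zero]
  have h10 : ((γ 1 0 : ℤ) : ZMod M) = 0 := Gamma0_mem.mp hγ
  push_cast
  rw [h10]
  ring

theorem IsOddWeight.comp_mul {a : ℤ → ℂ} (ha : IsOddWeight a) (d : ℤ) :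
    IsOddWeight (fun c => a (d * c)) where
  bdd c := ha.bdd _
  odd c := by
    show a (d * -c) = -a (d * c)
    rw [mul_neg, ha.odd]

/-! ## The `q`-expansion -/

/-- The weight restricted to `ℕ`. -/
def natW (a : ℤ → ℂ) (d : ℕ) : ℂ := a (d : ℤ)

theorem norm_natW_le {a : ℤ → ℂ} (ha : IsOddWeight a) (d : ℕ) : ‖natW a d‖ ≤ 1 := ha.bdd _

/-- The twisted divisor sum `∑_{d c = n} a(d) c²`. -/
def sigmaO (a : ℤ → ℂ) (n : ℕ) : ℂ := sigmaW (natW a) 2 n

theorem sigmaO_zero (a : ℤ → ℂ) : sigmaO a 0 = 0 := sigmaW_zero _ _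

theorem sigmaO_one (a : ℤ → ℂ) : sigmaO a 1 = a 1 := by
  rw [sigmaO, sigmaW_one, natW]
  simp

theorem summable_cEis_prod {a : ℤ → ℂ} (ha : IsOddWeight a) (z : ℍ) :
    Summable fun x : ℤ × ℤ ↦ a x.1 * eisSummand 3 ![x.1, x.2] z := by
  have h := H332.summable_wEis (c := fun v => a (v 0)) (fun v => ha.bdd (v 0)) (k := 3) le_rfl z
  refine (finTwoArrowEquiv ℤ).summable_iff.mp (h.congr fun v => ?_)
  simp [show ![v 0, v 1] = v from List.ofFn_inj.mp rfl]

theorem cEis_eq_tsum {a : ℤ → ℂ} (ha : IsOddWeight a) (z : ℍ) :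
    cEis a z = (-2 * π * Complex.I) ^ 3 *
      ∑' n : ℕ+, sigmaO a n * cexp (2 * π * Complex.I * z) ^ (n : ℕ) := by
  have hsum := summable_cEis_prod ha z
  unfold cEis H332.wEis
  rw [← (finTwoArrowEquiv ℤ).symm.tsum_eq]
  simp only [finTwoArrowEquiv_symm_apply, Matrix.cons_val_zero]
  rw [hsum.tsum_prod, tsum_int_eq_zero_add_two_mul_tsum_pnat (fun n ↦ ?h₁)
      (by simpa using hsum.prod)]
  case h₁ =>
    nth_rewrite 1 [← tsum_comp_neg]
    refine tsum_congr fun y => ?_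
    have he : eisSummand 3 ![-n, -y] z = - eisSummand 3 ![n, y] z := by
      simp only [eisSummand, Matrix.cons_val_zero, Matrix.cons_val_one, Int.cast_neg]
      rw [show (-(n : ℂ) * (z : ℂ) + -(y : ℂ)) = -((n : ℂ) * z + y) by ring]
      rw [Odd.neg_zpow (by decide : Odd (-3 : ℤ))]
    rw [ha.odd, he, neg_mul_neg]
  have h0 : ∑' d : ℤ, a 0 * eisSummand 3 ![0, d] z = 0 := by
    simp [ha.zero]
  rw [h0, zero_add]
  have H (b : ℕ+) := qExpansion_identity_pnat (k := 2) (by norm_num)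
    ⟨b * z, by simpa using z.2⟩
  have hterm : ∀ b : ℕ+, ∑' d : ℤ, a (b : ℤ) * eisSummand 3 ![(b : ℤ), d] z =
      ((-2 * π * Complex.I) ^ 3 / 2) * ∑' c : ℕ+, natW a b * (c : ℂ) ^ 2 *
        cexp (2 * π * Complex.I * z) ^ (b * c : ℕ) := by
    intro b
    have hb := H b
    simp only at hb
    have h1 : ∀ d : ℤ, a (b : ℤ) * eisSummand 3 ![(b : ℤ), d] z =
        natW a b * (1 / ((b : ℂ) * z + d) ^ (2 + 1)) := by
      intro d
      simp only [natW, eisSummand, Matrix.cons_val_zero, Matrix.cons_val_one]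
      congr 1
      rw [show (-(3 : ℤ)) = -((3 : ℕ) : ℤ) by norm_num, zpow_neg, zpow_natCast]
      simp
    simp_rw [h1]
    rw [tsum_mul_left, hb, Nat.factorial_two]
    rw [← tsum_mul_left, ← tsum_mul_left, ← tsum_mul_left]
    refine tsum_congr fun c => ?_
    rw [← Complex.exp_nat_mul, ← Complex.exp_nat_mul]
    push_cast
    ring_nf
  simp_rw [hterm]
  simp only [sigmaO]
  rw [tsum_mul_left, ← tsum_prod_weight_eq (natW a) (norm_natW_le ha) 2
    (norm_exp_two_pi_I_lt_one z), nsmul_eq_mul]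
  push_cast
  ring

theorem norm_sigmaO_le {a : ℤ → ℂ} (ha : IsOddWeight a) (n : ℕ) :
    ‖sigmaO a n‖ ≤ (n : ℝ) ^ 3 := by
  unfold sigmaO sigmaW
  refine (norm_sum_le _ _).trans ?_
  have h1 : ∀ x ∈ n.divisorsAntidiagonal, ‖natW a x.1 * (x.2 : ℂ) ^ 2‖ ≤ (n : ℝ) ^ 2 := by
    intro x hx
    rw [norm_mul, norm_pow, Complex.norm_natCast]
    have hx' := Nat.mem_divisorsAntidiagonal.mp hx
    have hle : x.2 ≤ n := Nat.le_of_dvd (Nat.pos_of_ne_zero hx'.2) ⟨x.1, by rw [← hx'.1, mul_comm]⟩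
    have hle' : (x.2 : ℝ) ≤ n := by exact_mod_cast hle
    calc ‖natW a x.1‖ * (x.2 : ℝ) ^ 2 ≤ 1 * (n : ℝ) ^ 2 := by
          gcongr
          exact norm_natW_le ha _
      _ = (n : ℝ) ^ 2 := one_mul _
  refine (Finset.sum_le_card_nsmul _ _ _ h1).trans ?_
  rw [nsmul_eq_mul]
  have hcard : (n.divisorsAntidiagonal.card : ℝ) ≤ n := by
    rw [← Nat.map_div_right_divisors, Finset.card_map]
    exact_mod_cast Nat.card_divisors_le_self n
  calc (n.divisorsAntidiagonal.card : ℝ) * (n : ℝ) ^ 2 ≤ n * (n : ℝ) ^ 2 := by gcongr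
    _ = (n : ℝ) ^ 3 := by ring

theorem summable_sigmaO_mul_pow {a : ℤ → ℂ} (ha : IsOddWeight a) (z : ℍ) :
    Summable fun n : ℕ ↦ sigmaO a n * cexp (2 * π * Complex.I * z) ^ n := by
  apply Summable.of_norm_bounded
    (summable_norm_pow_mul_geometric_of_norm_lt_one 3 (norm_exp_two_pi_I_lt_one z))
  intro n
  simp only [norm_mul, norm_pow, Complex.norm_natCast]
  gcongr
  exact norm_sigmaO_le ha n

local notation "𝕢" => Function.Periodic.qParam

theorem hasSum_cEis {a : ℤ → ℂ} (ha : IsOddWeight a) (z : ℍ) :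
    HasSum (fun n : ℕ => ((-2 * π * Complex.I) ^ 3 * sigmaO a n) • 𝕢 1 z ^ n) (cEis a z) := by
  have hS := summable_sigmaO_mul_pow ha z
  have h1 : ∑' n : ℕ+, sigmaO a n * cexp (2 * π * Complex.I * z) ^ (n : ℕ) =
      ∑' n : ℕ, sigmaO a n * cexp (2 * π * Complex.I * z) ^ n := by
    rw [← tsum_zero_pnat_eq_tsum_nat hS]
    simp [sigmaO_zero]
  rw [cEis_eq_tsum ha z, h1]
  have h2 := (hS.mul_left ((-2 * π * Complex.I) ^ 3)).hasSum
  rw [tsum_mul_left] at h2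
  convert! h2 using 1
  funext n
  simp only [smul_eq_mul, Function.Periodic.qParam, Complex.ofReal_one, div_one]
  ring

/-- The `q`-expansion of `cEis a`. -/
theorem qExpansion_cEis_coeff {a : ℤ → ℂ} (ha : IsOddWeight a) (n : ℕ) :
    (qExpansion 1 (cEis a)).coeff n = (-2 * π * Complex.I) ^ 3 * sigmaO a n :=
  Fermat.Agent.S22T.qExpansion_coeff_of_hasSum one_pos (hasSum_cEis ha) (cEis_mdiff ha) n

end Fermat.Agent.S48.H916
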