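import Mathlib
import Fermat.Agent.S48.H916.OddEis
import Fermat.Agent.S23.Cap.Basic
import Fermat.Agent.S23.H143.PrimElt
import Fermat.Agent.S23.ConverseQ

/-!
# S48 / INT input W2 (helper916): a primitive element ("t-form") for `Γ₁(M)`, `M ≥ 3`

`t = κ t₁ (M³ E₄(M z) + c E₄)`, `t₁ = ∑_{(c,d)} ([c ≡ 1] - [c ≡ -1] mod M) (c z + d)^{-3}`:
a modular form of weight `7` on `Γ₁(M)` with integral `q`-expansion such that
`t ∣[7] γ ≠ t` for every `γ ∈ SL₂(ℤ) \ Γ₁(M)`.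
-/

set_option autoImplicit false

open UpperHalfPlane EisensteinSeries ModularForm Filter Topology Complex CongruenceSubgroup
open scoped Matrix MatrixGroups Manifold Real

noncomputable section

namespace Fermat.Agent.S48.H916

open Fermat.Agent.S23.Cap Fermat.Agent.S23

/-- `Γ₁(M)` as a subgroup of `GL(2,ℝ)` (this is what `CuspForm (Gamma1 M) k` elaborates to). -/
abbrev G1 (M : ℕ) : Subgroup (GL (Fin 2) ℝ) :=
  Subgroup.map (Matrix.SpecialLinearGroup.mapGL ℝ) (Gamma1 M)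

theorem one_mem_strictPeriods_G1 (M : ℕ) : (1 : ℝ) ∈ (G1 M).strictPeriods := by
  simp

theorem G1_le_G0 (M : ℕ) : G1 M ≤ G0 M := by
  rintro _ ⟨γ, hγ, rfl⟩
  exact ⟨γ, Gamma1_in_Gamma0 M hγ, rfl⟩

theorem G1_le_SLZ (M : ℕ) : G1 M ≤ SLZ := by
  rintro _ ⟨γ, -, rfl⟩
  exact ⟨γ, rfl⟩

/-- Restriction of the level. -/
theorem isMF_mono {Γ Γ' : Subgroup (GL (Fin 2) ℝ)} (h : Γ ≤ Γ') {k : ℤ} {f : ℍ → ℂ}
    (hf : IsMF Γ' k f) : IsMF Γ k f := by
  obtain ⟨F, rfl⟩ := hf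
  exact ⟨H143.restrictMF h F, rfl⟩

/-! ## The weight -/

/-- The odd weight `[c ≡ 1] - [c ≡ -1] (mod M)`. -/
def uW (M : ℕ) (c : ℤ) : ℂ :=
  if (c : ZMod M) = 1 then 1 else if (c : ZMod M) = -1 then -1 else 0

theorem one_ne_neg_one_zmod {M : ℕ} (hM : 3 ≤ M) : (1 : ZMod M) ≠ -1 := by
  intro h
  have h2 : ((2 : ℕ) : ZMod M) = 0 := by
    have : (1 : ZMod M) + 1 = 0 := by
      nth_rewrite 1 [h]
      simp
    push_cast
    rw [← this]
    norm_num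
  rw [ZMod.natCast_eq_zero_iff] at h2
  have := Nat.le_of_dvd (by norm_num) h2
  omega

theorem uW_periodic (M : ℕ) (c c' : ℤ) (h : (c : ZMod M) = (c' : ZMod M)) :
    uW M c = uW M c' := by
  unfold uW
  rw [h]

theorem uW_eq_one_iff {M : ℕ} (c : ℤ) : uW M c = 1 ↔ (c : ZMod M) = 1 := by
  unfold uW
  split_ifs with h1 h2
  · simp [h1]
  · simp only [h1, iff_false]
    norm_num
  · simp [h1]

theorem isOddWeight_uW {M : ℕ} (hM : 3 ≤ M) : IsOddWeight (uW M) where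
  bdd c := by
    unfold uW
    split_ifs <;> simp
  odd c := by
    have hne := one_ne_neg_one_zmod hM
    unfold uW
    rw [Int.cast_neg]
    generalize (c : ZMod M) = x
    by_cases h1 : x = 1
    · have h2 : ¬ (-x = 1) := by
        rw [h1]
        exact fun h => hne h.symm
      have h3 : -x = -1 := by rw [h1]
      rw [if_neg h2, if_pos h3, if_pos h1]
    · by_cases h2 : x = -1
      · have h3 : (-x = 1) := by rw [h2]; simp
        rw [if_pos h3, if_neg h1, if_pos h2]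
        simp
      · have h3 : ¬ (-x = 1) := fun h => h2 (by rw [← h]; simp)
        have h4 : ¬ (-x = -1) := fun h => h1 (neg_injective h)
        rw [if_neg h3, if_neg h4, if_neg h1, if_neg h2]
        simp

/-! ## The form `t₁` -/

/-- `t₁ = ∑ ([c ≡ 1] - [c ≡ -1]) (c z + d)^{-3}`. -/
def t1 (M : ℕ) : ℍ → ℂ := cEis (uW M)

theorem t1_slash_Gamma0 (M : ℕ) (γ : SL(2, ℤ)) (hγ : γ ∈ Gamma0 M) :
    t1 M ∣[(3 : ℤ)] γ = cEis (fun c => uW M (γ 1 1 * c)) :=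
  cEis_slash (uW_periodic M) γ hγ

theorem t1_slash_Gamma1 (M : ℕ) (γ : SL(2, ℤ)) (hγ : γ ∈ Gamma1 M) :
    t1 M ∣[(3 : ℤ)] γ = t1 M := by
  rw [t1_slash_Gamma0 M γ (Gamma1_in_Gamma0 M hγ)]
  unfold t1
  congr 1
  funext c
  apply uW_periodic
  have h11 : ((γ 1 1 : ℤ) : ZMod M) = 1 := (Gamma1_mem M γ).mp hγ |>.2.1
  push_cast
  rw [h11, one_mul]

/-- `t₁` as a modular form of weight `3` on `Γ₁(M)`. -/
def t1Form (M : ℕ) [NeZero M] (hM : 3 ≤ M) : ModularForm (Gamma1 M) 3 where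
  toFun := t1 M
  slash_action_eq' := by
    rintro _ ⟨γ, hγ, rfl⟩
    exact t1_slash_Gamma1 M γ hγ
  holo' := cEis_mdiff (isOddWeight_uW hM)
  bdd_at_cusps' {c} hc := by
    rw [Subgroup.IsArithmetic.isCusp_iff_isCusp_SL2Z] at hc
    rw [OnePoint.isBoundedAt_iff_forall_SL2Z hc]
    intro γ _
    exact cEis_slash_isBoundedAtImInfty (isOddWeight_uW hM) γ

theorem isMF_t1 {M : ℕ} (hM : 3 ≤ M) : IsMF (G1 M) 3 (t1 M) :=
  haveI : NeZero M := ⟨by omega⟩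
  ⟨t1Form M hM, rfl⟩

theorem qx_t1_coeff {M : ℕ} (hM : 3 ≤ M) (n : ℕ) :
    (qx (t1 M)).coeff n = (-2 * π * Complex.I) ^ 3 * sigmaO (uW M) n :=
  qExpansion_cEis_coeff (isOddWeight_uW hM) n

theorem kappa_ne_zero : (-2 * π * Complex.I) ^ 3 ≠ 0 := by
  apply pow_ne_zero
  simp [Real.pi_ne_zero, Complex.I_ne_zero]

theorem t1_ne_zero {M : ℕ} (hM : 3 ≤ M) : t1 M ≠ 0 := by
  intro h
  have h1 := qx_t1_coeff hM 1
  rw [h, qx_zero, sigmaO_one] at h1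
  have hu : uW M 1 = 1 := (uW_eq_one_iff 1).mpr (by simp)
  rw [hu, mul_one] at h1
  exact kappa_ne_zero (by simpa using h1.symm)

/-- `t₁ ∣ γ ≠ t₁` for `γ ∈ Γ₀(M) \ Γ₁(M)`: compare the coefficients of `q`. -/
theorem t1_slash_ne {M : ℕ} (hM : 3 ≤ M) (γ : SL(2, ℤ)) (hγ : γ ∈ Gamma0 M)
    (hγ' : γ ∉ Gamma1 M) : t1 M ∣[(3 : ℤ)] γ ≠ t1 M := by
  intro h
  rw [t1_slash_Gamma0 M γ hγ] at h
  have h1 := qExpansion_cEis_coeff ((isOddWeight_uW hM).comp_mul (γ 1 1)) 1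
  rw [h] at h1
  have h2 := qx_t1_coeff hM 1
  rw [sigmaO_one] at h1 h2
  have hu : uW M 1 = 1 := (uW_eq_one_iff 1).mpr (by simp)
  have h3 : uW M (γ 1 1 * 1) = 1 := by
    have := h1.symm.trans h2
    rw [hu] at this
    exact mul_left_cancel₀ kappa_ne_zero this
  rw [mul_one, uW_eq_one_iff] at h3
  apply hγ'
  rw [Gamma1_mem]
  have h10 : ((γ 1 0 : ℤ) : ZMod M) = 0 := Gamma0_mem.mp hγ
  refine ⟨?_, h3, h10⟩
  have hdet := H143.primElt_det_eq γ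
  have := congrArg (Int.cast : ℤ → ZMod M) hdet
  push_cast at this
  rw [h3, h10] at this
  simpa using this

/-! ## Niceness and `q`-expansions for `Γ₁(M)` -/

theorem isNice_of_isMF {Γ : Subgroup (GL (Fin 2) ℝ)} (h1 : (1 : ℝ) ∈ Γ.strictPeriods)
    {k : ℤ} {f : ℍ → ℂ} (hf : IsMF Γ k f) : Conv.IsNice f := by
  obtain ⟨F, rfl⟩ := hf
  exact Conv.isNice_of_modularFormClass h1 F

theorem isNice_smul {f : ℍ → ℂ} (hf : Conv.IsNice f) (c : ℂ) : Conv.IsNice (c • f) := by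
  have hc : Conv.IsNice (fun _ : ℍ => c) :=
    ⟨mdifferentiable_const, fun z ↦ rfl, Filter.const_boundedAtFilter _ c⟩
  have : c • f = (fun _ : ℍ => c) * f := by
    ext z
    simp
  rw [this]
  exact hc.mul hf

theorem qx_smul_of_isNice {f : ℍ → ℂ} (hf : Conv.IsNice f) (c : ℂ) :
    qx (c • f) = c • qx f := by
  ext n
  have hcf : Conv.IsNice (c • f) := isNice_smul hf c
  have h := UpperHalfPlane.qExpansion_smul (h := 1) hf.analyticAt c
  rw [show qx (c • f) = qExpansion 1 (c • f) from rfl, h]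

/-! ## The `t`-form -/

/-- The normalisation constant `κ = ((-2πi)³)⁻¹`. -/
def kap : ℂ := ((-2 * π * Complex.I) ^ 3)⁻¹

theorem kap_ne_zero : kap ≠ 0 := inv_ne_zero kappa_ne_zero

/-- `f = κ t₁`, with integral `q`-expansion. -/
def fT (M : ℕ) : ℍ → ℂ := kap • t1 M

/-- `t_c = κ t₁ (M³ E₄(M z) + c E₄)`. -/
def tC (M : ℕ) [NeZero M] (c : ℂ) : ℍ → ℂ := fT M * (⇑(H143.primElt M) + c • ⇑E₄)

theorem isMF_fT {M : ℕ} (hM : 3 ≤ M) : IsMF (G1 M) 3 (fT M) :=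
  haveI : NeZero M := ⟨by omega⟩
  (isMF_t1 hM).smul kap

theorem isMF_primElt (M : ℕ) [NeZero M] : IsMF (G1 M) 4 ⇑(H143.primElt M) :=
  isMF_mono (G1_le_G0 M) ⟨H143.primElt M, rfl⟩

theorem isMF_E4 (M : ℕ) : IsMF (G1 M) 4 ⇑E₄ :=
  isMF_mono (G1_le_SLZ M) ⟨E₄, rfl⟩

theorem isMF_tC {M : ℕ} [NeZero M] (hM : 3 ≤ M) (c : ℂ) : IsMF (G1 M) 7 (tC M c) :=
  ((isMF_fT hM).mul ((isMF_primElt M).add ((isMF_E4 M).smul c))).congr_weight (by norm_num)

theorem fT_ne_zero {M : ℕ} (hM : 3 ≤ M) : fT M ≠ 0 := by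
  intro h
  apply t1_ne_zero hM
  ext z
  have := congrFun h z
  simp only [fT, Pi.smul_apply, smul_eq_mul, Pi.zero_apply, mul_eq_zero] at this
  rcases this with h | h
  · exact absurd h kap_ne_zero
  · simpa using h

theorem E4_ne_zero : (⇑E₄ : ℍ → ℂ) ≠ 0 := by
  intro h
  have h1 := H143.tendsto_E₄_atImInfty
  rw [h] at h1
  have h0 : Tendsto (0 : ℍ → ℂ) atImInfty (𝓝 0) := tendsto_const_nhds
  have := tendsto_nhds_unique h1 h0
  norm_num at this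

theorem isIntSeries_sigmaO_uW (M : ℕ) (n : ℕ) : ∃ m : ℤ, sigmaO (uW M) n = (m : ℂ) := by
  unfold sigmaO H128.sigmaW
  have key : ∀ s : Finset (ℕ × ℕ),
      ∃ m : ℤ, ∑ x ∈ s, natW (uW M) x.1 * (x.2 : ℂ) ^ 2 = (m : ℂ) := by
    intro s
    classical
    induction s using Finset.induction_on with
    | empty => exact ⟨0, by simp⟩
    | insert a s ha ih =>
      obtain ⟨m, hm⟩ := ih
      have hu : ∃ u : ℤ, natW (uW M) a.1 = (u : ℂ) := by
        unfold natW uW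
        split_ifs
        · exact ⟨1, by simp⟩
        · exact ⟨-1, by simp⟩
        · exact ⟨0, by simp⟩
      obtain ⟨u, hu⟩ := hu
      refine ⟨u * (a.2 : ℤ) ^ 2 + m, ?_⟩
      rw [Finset.sum_insert ha, hm, hu]
      push_cast
      ring
  exact key _

theorem isIntSeries_qx_fT {M : ℕ} (hM : 3 ≤ M) : IsIntSeries (qx (fT M)) := by
  intro n
  have hN : Conv.IsNice (t1 M) := isNice_of_isMF (one_mem_strictPeriods_G1 M) (isMF_t1 hM)
  obtain ⟨m, hm⟩ := isIntSeries_sigmaO_uW M n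
  refine ⟨m, ?_⟩
  rw [fT, qx_smul_of_isNice hN, PowerSeries.coeff_smul, qx_t1_coeff hM, hm, smul_eq_mul, kap,
    ← mul_assoc, inv_mul_cancel₀ kappa_ne_zero, one_mul]

theorem isIntSeries_natCast_smul {F : PowerSeries ℂ} (hF : IsIntSeries F) (c : ℕ) :
    IsIntSeries ((c : ℂ) • F) := by
  intro n
  obtain ⟨m, hm⟩ := hF n
  exact ⟨c * m, by rw [PowerSeries.coeff_smul, hm]; push_cast; simp⟩

theorem isIntSeries_qx_tC {M : ℕ} [NeZero M] (hM : 3 ≤ M) (c : ℕ) :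
    IsIntSeries (qx (tC M (c : ℂ))) := by
  have h1 := one_mem_strictPeriods_G1 M
  have hf : Conv.IsNice (fT M) := isNice_of_isMF h1 (isMF_fT hM)
  have hu : Conv.IsNice ⇑(H143.primElt M) := isNice_of_isMF h1 (isMF_primElt M)
  have he : Conv.IsNice ⇑E₄ := isNice_of_isMF h1 (isMF_E4 M)
  have hce : Conv.IsNice ((c : ℂ) • ⇑E₄) := isNice_smul he _
  rw [tC, show qx (fT M * (⇑(H143.primElt M) + (c : ℂ) • ⇑E₄)) =
      qExpansion 1 (fT M * (⇑(H143.primElt M) + (c : ℂ) • ⇑E₄)) from rfl,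
    Conv.IsNice.qExpansion_mul hf (hu.add hce), Conv.IsNice.qExpansion_add hu hce]
  refine (isIntSeries_qx_fT hM).mul (IsIntSeries.add ?_ ?_)
  · exact H143.primElt_qExpansion_coeff_int M
  · have := qx_smul_of_isNice he (c : ℂ)
    rw [show qExpansion 1 ((c : ℂ) • ⇑E₄) = qx ((c : ℂ) • ⇑E₄) from rfl, this]
    exact isIntSeries_natCast_smul H143.E₄_qExpansion_coeff_int c

/-- The slash action on `t_c`. -/
theorem tC_slash (M : ℕ) [NeZero M] (c : ℂ) (γ : SL(2, ℤ)) :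
    tC M c ∣[(7 : ℤ)] γ =
      (fT M ∣[(3 : ℤ)] γ) * ((⇑(H143.primElt M)) ∣[(4 : ℤ)] γ + c • ⇑E₄) := by
  have hE : (⇑E₄ : ℍ → ℂ) ∣[(4 : ℤ)] γ = ⇑E₄ :=
    SlashInvariantForm.slash_action_eqn E₄ _ ⟨γ, rfl⟩
  rw [tC, show (7 : ℤ) = 3 + 4 by norm_num, mul_slash_SL2, SlashAction.add_slash,
    SL_smul_slash, hE]

/-- For `γ ∉ Γ₁(M)` at most one `c` is bad. -/
theorem tC_bad_subsingleton {M : ℕ} [NeZero M] (hM : 3 ≤ M) (γ : SL(2, ℤ))
    (hγ : γ ∉ Gamma1 M) (c c' : ℂ) (hc : tC M c ∣[(7 : ℤ)] γ = tC M c)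
    (hc' : tC M c' ∣[(7 : ℤ)] γ = tC M c') : c = c' := by
  by_contra hne
  rw [tC_slash] at hc hc'
  unfold tC at hc hc'
  have hfM : MDiff (fT M) := (isNice_of_isMF (one_mem_strictPeriods_G1 M) (isMF_fT hM)).1
  have huM : MDiff ⇑(H143.primElt M) := ModularFormClass.holo _
  have heM : MDiff (⇑E₄ : ℍ → ℂ) := ModularFormClass.holo _
  have hfγ : MDiff (fT M ∣[(3 : ℤ)] γ) := hfM.slash 3 _
  have huγ : MDiff ((⇑(H143.primElt M)) ∣[(4 : ℤ)] γ) := huM.slash 4 _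
  -- step 1 : `f ∣ γ = f`
  have h1 : (fT M ∣[(3 : ℤ)] γ - fT M) * ⇑E₄ = 0 := by
    have hsub : (c - c') • ((fT M ∣[(3 : ℤ)] γ - fT M) * ⇑E₄) = 0 := by
      ext z
      have hz := congrFun hc z
      have hz' := congrFun hc' z
      simp only [Pi.sub_apply, Pi.mul_apply, Pi.add_apply, Pi.smul_apply, smul_eq_mul,
        Pi.zero_apply] at hz hz' ⊢
      linear_combination hz - hz'
    rcases smul_eq_zero.mp hsub with h | h
    · exact absurd (sub_eq_zero.mp h) hne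
    · exact h
  have h2 : fT M ∣[(3 : ℤ)] γ = fT M := by
    rcases (UpperHalfPlane.mul_eq_zero_iff (hfγ.sub hfM) heM).mp h1 with h | h
    · exact sub_eq_zero.mp h
    · exact absurd h E4_ne_zero
  -- step 2 : `u ∣ γ = u`
  have h3 : fT M * ((⇑(H143.primElt M)) ∣[(4 : ℤ)] γ - ⇑(H143.primElt M)) = 0 := by
    rw [h2] at hc
    ext z
    have hz := congrFun hc z
    simp only [Pi.sub_apply, Pi.mul_apply, Pi.add_apply, Pi.smul_apply, smul_eq_mul,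
      Pi.zero_apply] at hz ⊢
    linear_combination hz
  have h4 : (⇑(H143.primElt M)) ∣[(4 : ℤ)] γ = ⇑(H143.primElt M) := by
    rcases (UpperHalfPlane.mul_eq_zero_iff hfM (huγ.sub huM)).mp h3 with h | h
    · exact absurd h (fT_ne_zero hM)
    · exact sub_eq_zero.mp h
  have h5 : γ ∈ Gamma0 M := by
    by_contra h
    exact H143.primElt_slash_ne M γ h h4
  -- step 3 : contradiction with `t1_slash_ne`
  apply t1_slash_ne hM γ h5 hγ
  have h6 : kap • (t1 M ∣[(3 : ℤ)] γ) = kap • t1 M := by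
    rw [← SL_smul_slash]
    exact h2
  ext z
  have hz := congrFun h6 z
  simp only [Pi.smul_apply, smul_eq_mul] at hz
  exact mul_left_cancel₀ kap_ne_zero hz

/-- **The `t`-form for `Γ₁(M)`, `M ≥ 3`.** -/
theorem exists_tForm_G1 {M : ℕ} (hM : 3 ≤ M) :
    ∃ (w : ℤ) (t : ℍ → ℂ), IsMF (G1 M) w t ∧ IsIntSeries (qx t) ∧
      ∀ γ : GL (Fin 2) ℝ, γ ∈ SLZ → γ ∉ G1 M → t ∣[w] γ ≠ t := by
  have : NeZero M := ⟨by omega⟩
  classical
  -- the finite set of bad constants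
  let Q := SL(2, ℤ) ⧸ Gamma1 M
  have : Finite Q := Subgroup.finite_quotient_of_finiteIndex
  let bad : Q → Set ℂ := fun q =>
    {c | (q.out)⁻¹ ∉ Gamma1 M ∧ tC M c ∣[(7 : ℤ)] (q.out)⁻¹ = tC M c}
  have hbad : ∀ q, (bad q).Finite := by
    intro q
    apply Set.Subsingleton.finite
    rintro c ⟨hq, hc⟩ c' ⟨-, hc'⟩
    exact tC_bad_subsingleton hM _ hq c c' hc hc'
  have hfin : (⋃ q, bad q).Finite := Set.finite_iUnion hbad
  obtain ⟨x, ⟨n, rfl⟩, hn⟩ :=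
    (Set.infinite_range_of_injective (Nat.cast_injective (R := ℂ))).exists_notMem_finite hfin
  refine ⟨7, tC M (n : ℂ), isMF_tC hM _, isIntSeries_qx_tC hM n, ?_⟩
  intro γ hγ hγ' heq
  obtain ⟨g, rfl⟩ := MonoidHom.mem_range.mp hγ
  have hg : g ∉ Gamma1 M := fun h => hγ' ⟨g, h, rfl⟩
  -- `g = h⁻¹ * (q.out)⁻¹` with `h ∈ Γ₁(M)`
  set q : Q := ((g⁻¹ : SL(2, ℤ)) : Q) with hq
  have hrel : (q.out)⁻¹ * g⁻¹ ∈ Gamma1 M := by
    have := QuotientGroup.out_eq' q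
    rw [hq] at this ⊢
    exact QuotientGroup.eq.mp this
  have hinv : g * q.out ∈ Gamma1 M := by
    have := inv_mem hrel
    simpa [mul_inv_rev] using this
  have hout : (q.out)⁻¹ ∉ Gamma1 M := by
    intro h
    apply hg
    have := mul_mem hinv h
    simpa using this
  apply hn
  refine Set.mem_iUnion.mpr ⟨q, hout, ?_⟩
  -- `t ∣ (q.out)⁻¹ = t ∣ (g q.out)⁻¹ ∣ g = t ∣ g = t`
  have hdec : (q.out)⁻¹ = (g * q.out)⁻¹ * g := by
    rw [mul_inv_rev, mul_assoc, inv_mul_cancel, mul_one]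
  rw [hdec, SlashAction.slash_mul]
  have hinvt : tC M (n : ℂ) ∣[(7 : ℤ)] (g * q.out)⁻¹ = tC M (n : ℂ) := by
    obtain ⟨T, hT⟩ := isMF_tC hM (n : ℂ)
    rw [← hT]
    exact SlashInvariantForm.slash_action_eqn T _ ⟨_, inv_mem hinv, rfl⟩
  rw [hinvt]
  exact heq

end Fermat.Agent.S48.H916
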