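import Mathlib
import Fermat.Agent.S48.H916.TForm
import Fermat.Agent.S48.H916.Descent
import Fermat.Agent.S23.Cap.TForm
import Fermat.Agent.S48.INT.Spec

/-!
# S48 / INT input W2 (helper916): integral structure of `S_k(Γ₁(M))`, every weight `k`

* `intStr M k : INT.IntStr M k` for every `M ≠ 0` and every weight `k`
  (`S_k(Γ₁(M))` is spanned by forms with integral `q`-expansion at `∞`);
* `intStrTwo : INT.IntStrTwoStatement` (the external input **W2** of `coord/S48-INT.md`);
* `intStrOne M : INT.IntStr M 1` (so the theta-division route AUX/DIVF/DIV is not needed).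

Proof: Galois descent (port of the landed S23, `Descent.lean`) with the `t`-form of `TForm.lean`.
-/

set_option autoImplicit false

open UpperHalfPlane ModularForm ModularFormClass MatrixGroups CongruenceSubgroup

namespace Fermat.Agent.S48.H916

open Fermat.Agent.S23.Cap Fermat.Agent.S23 Fermat.Agent.S48

/-- For `M ≤ 2` one has `Γ₀(M) ≤ Γ₁(M)`. -/
theorem Gamma0_le_Gamma1_of_le_two {M : ℕ} (hM0 : M ≠ 0) (hM : M ≤ 2) :
    Gamma0 M ≤ Gamma1 M := by
  intro γ hγ
  rw [Gamma1_mem]
  have h10 : ((γ 1 0 : ℤ) : ZMod M) = 0 := Gamma0_mem.mp hγ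
  have hdet := H143.primElt_det_eq γ
  have hd := congrArg (Int.cast : ℤ → ZMod M) hdet
  push_cast at hd
  rw [h10, mul_zero, sub_zero] at hd
  have key : ∀ x y : ZMod M, x * y = 1 → x = 1 ∧ y = 1 := by
    interval_cases M
    · exact absurd rfl hM0
    · intro x y _
      exact ⟨Subsingleton.elim _ _, Subsingleton.elim _ _⟩
    · decide
  exact ⟨(key _ _ hd).1, (key _ _ hd).2, h10⟩

/-- The `t`-form for `Γ₁(M)`, every `M ≠ 0`. -/
theorem hasTForm_G1 {M : ℕ} (hM0 : M ≠ 0) : HasTForm (G1 M) := by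
  rcases Nat.lt_or_ge M 3 with h | h
  · have : NeZero M := ⟨hM0⟩
    obtain ⟨w, t, ht, hint, hdist⟩ := exists_tForm M
    refine ⟨w, t, isMF_mono (G1_le_G0 M) ht, hint, fun γ hγ hγ' => hdist γ hγ ?_⟩
    rintro ⟨g, hg, rfl⟩
    exact hγ' ⟨g, Gamma0_le_Gamma1_of_le_two hM0 (by omega) hg, rfl⟩
  · exact exists_tForm_G1 h

/-- **Integral structure of `S_k(Γ₁(M))`**, every level `M ≠ 0` and every weight `k`. -/
theorem intStr (M : ℕ) (hM0 : M ≠ 0) (k : ℤ) : INT.IntStr M k := by
  have : NeZero M := ⟨hM0⟩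
  exact span_isIntSeries_eq_top (Gamma1 M) (one_mem_strictPeriods_G1 M) (hasTForm_G1 hM0) k

/-- **W2**: integral structure of `S_2(Γ₁(M))`. -/
theorem intStrTwo : INT.IntStrTwoStatement := fun M hM _ => intStr M hM 2

/-- Integral structure of `S_1(Γ₁(M))` (directly, without theta division). -/
theorem intStrOne (M : ℕ) (hM0 : M ≠ 0) : INT.IntStr M 1 := intStr M hM0 1

end Fermat.Agent.S48.H916
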